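import Mathlib

/-!
# IA-OLD (row 37, HARD case, endgame of the Ihara-avoidance route): pure algebra  (helper580)

Boston–Lenstra–Ribet over a commutative RING `k` (here: a complete DVR `O`, not a field).

* `h580_ker_le_ker`    : abstract core (`ker P ⊆ ker Q`), `B` without `2`-torsion;
* `h580_blr_algHom`    : `ρ : G →* E` with `k[G] → E` onto, `π : G →* B` with the quadratic
                         relations of `ρ` ⟹ an algebra homomorphism `Ψ : E →ₐ[k] B`, `Ψ ∘ ρ = π`;
* `h580_blr_matrix`    : the case `E = M₂(k)`, `k` a domain, `B` torsion-free and nonzero: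
                         `Ψ` is moreover INJECTIVE;
* `h580_trivial_of_trivial` : `ρ σ = 1 ⟹ π σ = 1`;
* `h580_no_scalar_sq`  : `π φ ^ 2 = q ^ 2`, `det ρ φ = q` is impossible for `q ≥ 2` in
                         characteristic `0` (the characteristic-zero Mazur principle).
-/

set_option autoImplicit false

namespace Fermat.Agent.Ribet.H580.IAOld

section abstract

variable {k : Type*} [CommRing k] {A E B : Type*} [Ring A] [Algebra k A] [Ring E] [Algebra k E]
  [Ring B] [Algebra k B]

/-- **Abstract core** (after helper223, `Lib.Ribet.H223.ker_le_ker_of_antiInvolution`), over a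
commutative ring: the only division is by `2` on `B`. -/
theorem h580_ker_le_ker (h2B : ∀ b : B, b + b = 0 → b = 0) (P : A →ₐ[k] E) (Q : A →ₐ[k] B)
    (T : A → k) (σ : A → A) (hσmul : ∀ u v, σ (u * v) = σ v * σ u)
    (hσQ : ∀ u, Q (σ u) = algebraMap k B (T u) - Q u)
    (hT : ∀ u, P u = 0 → T u = 0) (hsurj : Function.Surjective P)
    (hcomm : ∃ y z : E, (y * z - z * y) * (y * z - z * y) = 1) :
    ∀ u, P u = 0 → Q u = 0 := by
  have step1 : ∀ u, P u = 0 → ∀ v, Q u * Q v = Q (σ v) * Q u := by
    intro u hu v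
    have huv : P (u * v) = 0 := by rw [map_mul, hu, zero_mul]
    have h1 : Q (σ (u * v)) = - (Q u * Q v) := by
      rw [hσQ, hT _ huv, map_zero, zero_sub, map_mul]
    have h2 : Q (σ (u * v)) = - (Q (σ v) * Q u) := by
      rw [hσmul, map_mul, hσQ u, hT u hu, map_zero, zero_sub, mul_neg]
    exact neg_injective (h1.symm.trans h2)
  have step2 : ∀ u, P u = 0 → ∀ v w, Q u * Q (v * w - w * v) = 0 := by
    intro u hu v w
    have h1 : Q u * Q (v * w) = Q u * Q w * Q v := by
      rw [step1 u hu (v * w), hσmul, map_mul, mul_assoc, ← step1 u hu v, ← mul_assoc,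
        ← step1 u hu w]
    have h2 : Q u * Q (w * v) = Q u * Q w * Q v := by rw [map_mul, mul_assoc]
    rw [map_sub, mul_sub, h1, h2, sub_self]
  obtain ⟨y, z, hyz⟩ := hcomm
  obtain ⟨v, rfl⟩ := hsurj y
  obtain ⟨w, rfl⟩ := hsurj z
  set c : A := (v * w - w * v) * (v * w - w * v) with hc
  have hPc : P c = 1 := by
    rw [hc, map_mul, map_sub, map_mul, map_mul]
    exact hyz
  have hκ : P (c - 1) = 0 := by rw [map_sub, hPc, map_one, sub_self]
  have huc : ∀ u, P u = 0 → Q u * Q c = 0 := by
    intro u hu
    rw [hc, map_mul, ← mul_assoc, step2 u hu v w, zero_mul]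
  have h3 : Q (c - 1) * Q (c - 1) = - (Q (c - 1) * Q (c - 1)) := by
    have := step1 (c - 1) hκ (c - 1)
    rw [hσQ, hT _ hκ, map_zero, zero_sub, neg_mul] at this
    exact this
  have h4 : Q (c - 1) * Q (c - 1) = 0 := by
    apply h2B
    nth_rewrite 1 [h3]
    exact neg_add_cancel _
  have h6 : Q (c - 1) = 0 := by
    have h7 := huc (c - 1) hκ
    have h8 : Q c = Q (c - 1) + 1 := by rw [map_sub, map_one, sub_add_cancel]
    rw [h8, mul_add, h4, zero_add, mul_one] at h7
    exact h7
  have hQc : Q c = 1 := by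
    have h8 : Q c = Q (c - 1) + 1 := by rw [map_sub, map_one, sub_add_cancel]
    rw [h8, h6, zero_add]
  intro u hu
  have := huc u hu
  rwa [hQc, mul_one] at this

/-- The algebra homomorphism induced on the image of a surjection. -/
noncomputable def h580_liftOfKerLe (P : A →ₐ[k] E) (Q : A →ₐ[k] B)
    (hsurj : Function.Surjective P) (hker : ∀ u, P u = 0 → Q u = 0) : E →ₐ[k] B :=
  have key : ∀ u v, P u = P v → Q u = Q v := fun u v h => by
    have := hker (u - v) (by rw [map_sub, h, sub_self])
    rwa [map_sub, sub_eq_zero] at this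
  { toFun := fun e => Q (Function.surjInv hsurj e)
    map_one' := by
      rw [← map_one Q]
      exact key _ _ (by rw [Function.surjInv_eq hsurj, map_one])
    map_mul' := fun x y => by
      rw [← map_mul Q]
      exact key _ _ (by rw [map_mul, Function.surjInv_eq hsurj, Function.surjInv_eq hsurj,
        Function.surjInv_eq hsurj])
    map_zero' := by
      rw [← map_zero Q]
      exact key _ _ (by rw [Function.surjInv_eq hsurj, map_zero])
    map_add' := fun x y => by
      rw [← map_add Q]
      exact key _ _ (by rw [map_add, Function.surjInv_eq hsurj, Function.surjInv_eq hsurj,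
        Function.surjInv_eq hsurj])
    commutes' := fun r => by
      rw [← AlgHom.commutes Q r]
      exact key _ _ (by rw [Function.surjInv_eq hsurj, AlgHom.commutes]) }

theorem h580_liftOfKerLe_apply (P : A →ₐ[k] E) (Q : A →ₐ[k] B) (hsurj : Function.Surjective P)
    (hker : ∀ u, P u = 0 → Q u = 0) (u : A) : h580_liftOfKerLe P Q hsurj hker (P u) = Q u := by
  have := hker (Function.surjInv hsurj (P u) - u)
    (by rw [map_sub, Function.surjInv_eq hsurj, sub_self])
  rw [map_sub, sub_eq_zero] at this
  exact this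

end abstract

section groupRing

variable {k : Type*} [CommRing k] {G : Type*} [Group G] {E B : Type*} [Ring E] [Algebra k E]
  [Ring B] [Algebra k B]

/-- `g ↦ d(g) g⁻¹`, as a monoid homomorphism into the opposite of the group algebra. -/
noncomputable def h580_conjHom (d : G →* k) : G →* (MonoidAlgebra k G)ᵐᵒᵖ where
  toFun g := MulOpposite.op (MonoidAlgebra.single g⁻¹ (d g))
  map_one' := by
    rw [inv_one, map_one]
    rfl
  map_mul' g h := by
    rw [← MulOpposite.op_mul, MonoidAlgebra.single_mul_single, mul_inv_rev, map_mul, mul_comm]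

/-- The anti-involution `∑ a_g g ↦ ∑ a_g d(g) g⁻¹` of `k[G]`. -/
noncomputable def h580_conj (d : G →* k) (u : MonoidAlgebra k G) : MonoidAlgebra k G :=
  MulOpposite.unop (MonoidAlgebra.lift k (MonoidAlgebra k G)ᵐᵒᵖ G (h580_conjHom d) u)

theorem h580_conj_mul (d : G →* k) (u v : MonoidAlgebra k G) :
    h580_conj d (u * v) = h580_conj d v * h580_conj d u := by
  unfold h580_conj
  rw [map_mul, MulOpposite.unop_mul]

theorem h580_conj_add (d : G →* k) (u v : MonoidAlgebra k G) :
    h580_conj d (u + v) = h580_conj d u + h580_conj d v := by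
  unfold h580_conj
  rw [map_add, MulOpposite.unop_add]

theorem h580_conj_smul (d : G →* k) (r : k) (u : MonoidAlgebra k G) :
    h580_conj d (r • u) = r • h580_conj d u := by
  unfold h580_conj
  rw [map_smul, MulOpposite.unop_smul]

theorem h580_conj_of (d : G →* k) (g : G) :
    h580_conj d (MonoidAlgebra.of k G g) = MonoidAlgebra.single g⁻¹ (d g) := by
  unfold h580_conj
  rw [MonoidAlgebra.lift_of]
  rfl

/-- `Q ∘ conj = T - Q` when the quadratic relations hold. -/
theorem h580_lift_conj (π : G →* B) (d : G →* k) (t : G → k)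
    (hπ : ∀ g, π g * π g - t g • π g + d g • 1 = 0)
    (T : MonoidAlgebra k G →ₗ[k] k) (hT : ∀ g, T (MonoidAlgebra.of k G g) = t g)
    (u : MonoidAlgebra k G) :
    MonoidAlgebra.lift k B G π (h580_conj d u) =
      algebraMap k B (T u) - MonoidAlgebra.lift k B G π u := by
  induction u using MonoidAlgebra.induction_on with
  | of g =>
    rw [h580_conj_of, MonoidAlgebra.lift_single, MonoidAlgebra.lift_of, hT,
      Algebra.algebraMap_eq_smul_one]
    have h1 := hπ g
    have h2 : (π g * π g - t g • π g + d g • 1) * π g⁻¹ = 0 := by rw [h1, zero_mul]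
    have h3 : π g * π g⁻¹ = 1 := by rw [← map_mul, mul_inv_cancel, map_one]
    rw [add_mul, sub_mul, mul_assoc, h3, mul_one, smul_mul_assoc, h3, smul_mul_assoc,
      one_mul] at h2
    rw [← sub_eq_zero, ← h2]
    abel
  | add x y hx hy =>
    simp only [h580_conj_add, map_add, hx, hy]
    abel
  | smul r x hx =>
    simp only [h580_conj_smul, map_smul, hx, smul_sub, smul_eq_mul, map_mul]
    rw [Algebra.smul_def]

/-- **Boston–Lenstra–Ribet over a ring**: `π` factors through `ρ`. -/
theorem h580_blr_algHom (h2B : ∀ b : B, b + b = 0 → b = 0) (ρ : G →* E) (π : G →* B)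
    (d : G →* k) (τ : E →ₗ[k] k) (hπ : ∀ g, π g * π g - τ (ρ g) • π g + d g • 1 = 0)
    (hsurj : Function.Surjective (MonoidAlgebra.lift k E G ρ))
    (hcomm : ∃ y z : E, (y * z - z * y) * (y * z - z * y) = 1) :
    ∃ Ψ : E →ₐ[k] B, ∀ g, Ψ (ρ g) = π g := by
  have hT : ∀ g, (τ ∘ₗ (MonoidAlgebra.lift k E G ρ).toLinearMap) (MonoidAlgebra.of k G g) =
      τ (ρ g) := by
    intro g
    rw [LinearMap.comp_apply, AlgHom.toLinearMap_apply, MonoidAlgebra.lift_of]
  have hker : ∀ u, MonoidAlgebra.lift k E G ρ u = 0 → MonoidAlgebra.lift k B G π u = 0 := by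
    refine h580_ker_le_ker h2B (MonoidAlgebra.lift k E G ρ) (MonoidAlgebra.lift k B G π)
      (fun u => (τ ∘ₗ (MonoidAlgebra.lift k E G ρ).toLinearMap) u) (h580_conj d)
      (h580_conj_mul d) ?_ ?_ hsurj hcomm
    · intro u
      exact h580_lift_conj π d (fun g => τ (ρ g)) hπ _ hT u
    · intro u hu
      rw [LinearMap.comp_apply, AlgHom.toLinearMap_apply, hu, map_zero]
  refine ⟨h580_liftOfKerLe _ _ hsurj hker, fun g => ?_⟩
  have := h580_liftOfKerLe_apply _ _ hsurj hker (MonoidAlgebra.of k G g)
  rwa [MonoidAlgebra.lift_of, MonoidAlgebra.lift_of] at this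

end groupRing

end Fermat.Agent.Ribet.H580.IAOld
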