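import Fermat.Agent.Ribet.H580.IAOldGlue
import Fermat.Agent.S30.Chain.FromT
import Fermat.Agent.S30.H694.TorsionRelOfNodes
import Fermat.Agent.S18.Mod.H216.NodeMod
import Fermat.Agent.S18.H438.NodeAlg
import Fermat.Agent.S30.H990.Cheb
import Fermat.Agent.Lib.Cheb.FrobeniusDivision
import Fermat.Agent.Ribet.H584.Places

/-!
# IA-OLD from the three POW-leaves (helper580)

`iaOld_of_pow : Q2PowStatement → Q3PowStatement → EisSlopeQPowStatement → IAOldStatement`.

All standard inputs of `iaOld_core` are discharged from main, with the SAME imports as the landed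
`Fermat/Agent/S30.lean` (Kummer tower `S30.Chain.kumPackage`, ONTO `S30.H810`, (P) `S30.H709`,
(T) from the two S18 nodes, (Sm), (GH), CHEB Tier 1) + places `Ribet.H584.places`.
-/

set_option autoImplicit false
set_option synthInstance.maxHeartbeats 400000
set_option maxHeartbeats 1000000
set_option linter.overlappingInstances false

noncomputable section

namespace Fermat.Agent.Ribet.H580.IAOld

open AlgebraicCurve ModularCurve Polynomial
open Fermat.Agent.Ribet.Spec Fermat.Agent.Ribet.H944.Wall
open Fermat.Agent.S30.H330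

/-- **IA-OLD from the three POW-leaves** (characteristic-zero Mazur principle). -/
theorem iaOld_of_pow (h2 : Q2PowStatement) (h3 : Q3PowStatement) (hE : EisSlopeQPowStatement) :
    IAOldStatement := by
  intro p q M' _ _ _ hp hp5 hq hq2 hqp hqM S hpS hNS O _ _ _ _ _ _ hpO χ ρ hchar habs hunr a hNE
    hcong
  haveI : Fact p.Prime := ⟨hp⟩
  haveI : NeZero p := ⟨hp.ne_zero⟩
  obtain ⟨A, hA, φ, hφ⟩ := Fermat.Agent.Ribet.H584.places q hq
  have hpk : ∀ n, Fermat.Agent.S30.H450.KumPackage (q * M') (p ^ n) := fun n =>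
    haveI : NeZero (p ^ n) := ⟨pow_ne_zero n hp.ne_zero⟩
    Fermat.Agent.S30.Chain.kumPackage (q * M') (p ^ n)
  have hK : KummerInjStatement (q * M') p := kummerInjStatement_of_packages hpk
  have hF : FinStatement (q * M') p :=
    finStatement_of_onto (kumPackage_one hpk).uniq
      (fun x hx => Fermat.Agent.S30.H810.exists_isKum_of_torsion (q * M') p hx)
  obtain ⟨f₀, hf0, hfne, hfe⟩ :=
    exists_eigenHom_of_inj hpS hNS hpO χ hK (parEigenStatement hNS χ)
  exact iaOld_core hp hp5 hq hq2 hqp hqM h2 h3 hE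
    (Fermat.Agent.S30.H990.chebWeak_of_frobeniusDivision Fermat.Agent.Lib.Cheb.frobeniusDivision)
    hA hφ
    (Fermat.Agent.S30.H694.torsionRelations_of_nodes
      (fun M _ _ _ hℓM A hA => Fermat.Agent.S18.Mod.H216.node_mod M hℓM A hA)
      (fun M => Fermat.Agent.S18.H438.node_alg M) (q * M') p)
    (Fermat.Agent.S30.H990.smoothStatement (q * M'))
    (Fermat.Agent.S30.H990.galoisHeckeStatement (q * M')) hF hpS hNS hpO χ ρ hchar habs hunr
    f₀ hf0 hfne hfe a hNE hcong

end Fermat.Agent.Ribet.H580.IAOld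

end
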