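import Fermat.Agent.S30.H330.AdicAlg

/-!
# IA-OLD, algebra of the layers of `Hom(K/O, J)` (helper580)

`O` a DVR with uniformiser `ϖ`, `K = Frac O`, `h : K →+ J` additive.
* `h580_first_layer` : if `h(O) ⊆ 𝒮` and `h(y/ϖⁿ) ∉ 𝒮`, there is `z ∈ ϖ⁻ⁿ O` with `h z ∉ 𝒮` and
  `h(c z) ∈ 𝒮` for all `c ∈ 𝔪` (the first layer not contained in `𝒮`);
* `h580_intCast_not_mem` : an integer prime to `p` is a unit of `O` (`p ∈ 𝔪`);
* `h580_noZeroSMulDivisors_eigenSub`.
-/

set_option autoImplicit false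

noncomputable section

namespace Fermat.Agent.Ribet.H580.IAOld

open Fermat.Agent.S30.H330

section Layer

variable {O : Type} [CommRing O] [IsDomain O] [IsDiscreteValuationRing O]
variable {J : Type} [AddCommGroup J]

/-- `z ∈ ϖ⁻ⁿ O`. -/
def h580_InLayer (ϖ : O) (n : ℕ) (z : FractionRing O) : Prop :=
  ∃ y : O, z = algebraMap O (FractionRing O) y / algebraMap O (FractionRing O) ϖ ^ n

theorem h580_inLayer_mul {ϖ : O} {n : ℕ} {z : FractionRing O} (hz : h580_InLayer ϖ n z) (c : O) :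
    h580_InLayer ϖ n (algebraMap O (FractionRing O) c * z) := by
  obtain ⟨y, rfl⟩ := hz
  refine ⟨c * y, ?_⟩
  rw [map_mul, mul_div_assoc]

/-- **First layer**: the first layer `h(ϖ⁻ʲ O)` not contained in `𝒮`. -/
theorem h580_first_layer {ϖ : O} (hϖ : Irreducible ϖ) (h : FractionRing O →+ J)
    (𝒮 : AddSubgroup J) (h0 : ∀ r : O, h (algebraMap O (FractionRing O) r) ∈ 𝒮)
    (n : ℕ) (z₀ : FractionRing O) (hz₀ : h580_InLayer ϖ n z₀) (hne : h z₀ ∉ 𝒮) :
    ∃ z : FractionRing O, h580_InLayer ϖ n z ∧ h z ∉ 𝒮 ∧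
      ∀ c ∈ IsLocalRing.maximalIdeal O, h (algebraMap O (FractionRing O) c * z) ∈ 𝒮 := by
  classical
  have hϖ0 : algebraMap O (FractionRing O) ϖ ≠ 0 := algebraMap_irreducible_ne_zero hϖ
  let P : ℕ → Prop := fun j => ∃ r : O,
    h (algebraMap O (FractionRing O) r / algebraMap O (FractionRing O) ϖ ^ j) ∉ 𝒮
  have hPn : P n := by
    obtain ⟨y, rfl⟩ := hz₀
    exact ⟨y, hne⟩
  have hex : ∃ j, P j := ⟨n, hPn⟩
  have hjn : Nat.find hex ≤ n := Nat.find_min' hex hPn
  obtain ⟨r, hr⟩ := Nat.find_spec hex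
  refine ⟨algebraMap O (FractionRing O) r / algebraMap O (FractionRing O) ϖ ^ (Nat.find hex),
    ⟨r * ϖ ^ (n - Nat.find hex), ?_⟩, hr, fun c hc => ?_⟩
  · rw [div_eq_div_iff (pow_ne_zero _ hϖ0) (pow_ne_zero _ hϖ0), map_mul, map_pow, mul_assoc,
      ← pow_add, Nat.sub_add_cancel hjn]
  · rw [hϖ.maximalIdeal_eq, Ideal.mem_span_singleton'] at hc
    obtain ⟨b, rfl⟩ := hc
    rcases Nat.eq_zero_or_pos (Nat.find hex) with hj0 | hjpos
    · rw [hj0, pow_zero, div_one, ← map_mul]
      exact h0 _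
    · obtain ⟨k, hk⟩ := Nat.exists_eq_succ_of_ne_zero hjpos.ne'
      have hmin : ¬ P k := Nat.find_min hex (by rw [hk]; exact Nat.lt_succ_self k)
      have e : algebraMap O (FractionRing O) (b * ϖ) *
          (algebraMap O (FractionRing O) r / algebraMap O (FractionRing O) ϖ ^ (Nat.find hex)) =
          algebraMap O (FractionRing O) (b * r) / algebraMap O (FractionRing O) ϖ ^ k := by
        rw [hk, pow_succ, map_mul, map_mul]
        field_simp
      rw [e]
      by_contra hcon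
      exact hmin ⟨b * r, hcon⟩

/-- An integer prime to `p` is not in the maximal ideal when `p` is. -/
theorem h580_intCast_not_mem {p : ℕ} (hp : p.Prime)
    (hpO : (p : O) ∈ IsLocalRing.maximalIdeal O) (m : ℤ) (hm : ¬ (p : ℤ) ∣ m) :
    ((m : ℤ) : O) ∉ IsLocalRing.maximalIdeal O := by
  intro hmem
  have hcop : IsCoprime m (p : ℤ) :=
    (IsCoprime.symm ((Prime.coprime_iff_not_dvd (Nat.prime_iff_prime_int.mp hp)).mpr hm))
  obtain ⟨u, v, huv⟩ := hcop
  have h1 : (1 : O) ∈ IsLocalRing.maximalIdeal O := by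
    have e : (1 : O) = (u : O) * (m : O) + (v : O) * (p : O) := by
      have := congrArg (fun k : ℤ => (k : O)) huv
      simp only [Int.cast_add, Int.cast_mul, Int.cast_natCast, Int.cast_one] at this
      exact this.symm
    rw [e]
    exact Ideal.add_mem _ (Ideal.mul_mem_left _ _ hmem) (Ideal.mul_mem_left _ _ hpO)
  exact (Ideal.ne_top_iff_one _).mp (IsLocalRing.maximalIdeal.isMaximal O).ne_top h1

variable {ι : Type} {t : ι → J →+ J} {a : ι → O}

/-- The eigen-submodule has no zero smul divisors. -/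
theorem h580_noZeroSMulDivisors_eigenSub : NoZeroSMulDivisors O (eigenSub t a) := by
  refine ⟨fun {c x} hcx => ?_⟩
  by_cases hc : c = 0
  · exact Or.inl hc
  · right
    have hc' : algebraMap O (FractionRing O) c ≠ 0 := by simpa using hc
    apply Subtype.ext
    apply SrcHom.ext
    intro z
    have h := congrArg (fun w : eigenSub t a => w.1.hom ((algebraMap O (FractionRing O) c)⁻¹ * z))
      hcx
    simp only [Submodule.coe_smul, SrcHom.hom_smul, Submodule.coe_zero, SrcHom.hom_zero] at h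
    rwa [mul_inv_cancel_left₀ hc'] at h

/-- Values on `ϖ⁻ⁿ O` are killed by `pⁿ` (layer form). -/
theorem h580_pow_smul_of_inLayer {p : ℕ} (hpO : (p : O) ∈ IsLocalRing.maximalIdeal O)
    {ϖ : O} (hϖ : Irreducible ϖ) {n : ℕ} {g : SrcHom O J} (hg : g ∈ eigenSub t a)
    {z : FractionRing O} (hz : h580_InLayer ϖ n z) : p ^ n • g.hom z = 0 := by
  obtain ⟨y, rfl⟩ := hz
  exact pow_smul_hom_div_eq_zero hpO hϖ n hg y

/-- Every element of `K` is in some layer `n > 0`. -/
theorem h580_exists_inLayer {ϖ : O} (hϖ : Irreducible ϖ) (z : FractionRing O) :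
    ∃ n : ℕ, 0 < n ∧ h580_InLayer ϖ n z := by
  have hϖ0 : algebraMap O (FractionRing O) ϖ ≠ 0 := algebraMap_irreducible_ne_zero hϖ
  obtain ⟨n, y, rfl⟩ := exists_eq_div_pow hϖ z
  refine ⟨n + 1, Nat.succ_pos n, y * ϖ, ?_⟩
  rw [div_eq_div_iff (pow_ne_zero _ hϖ0) (pow_ne_zero _ hϖ0), map_mul, pow_succ]
  ring

omit [IsDomain O] [IsDiscreteValuationRing O] in
/-- `h(e z) - m • h(z) = h((e - m) z)`. -/
theorem h580_hom_sub_zsmul (h : FractionRing O →+ J) (e : O) (m : ℤ) (z : FractionRing O) :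
    h (algebraMap O (FractionRing O) e * z) - m • h z =
      h (algebraMap O (FractionRing O) (e - (m : O)) * z) := by
  rw [← map_zsmul, ← map_sub, zsmul_eq_mul, ← sub_mul, map_sub, map_intCast]

omit [IsDomain O] [IsDiscreteValuationRing O] in
/-- `h(e z) - n • h(z) = h((e - n) z)`. -/
theorem h580_hom_sub_nsmul (h : FractionRing O →+ J) (e : O) (n : ℕ) (z : FractionRing O) :
    h (algebraMap O (FractionRing O) e * z) - n • h z =
      h (algebraMap O (FractionRing O) (e - (n : O)) * z) := by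
  rw [← map_nsmul, ← map_sub, nsmul_eq_mul, ← sub_mul, map_sub, map_natCast]

omit [IsDomain O] [IsDiscreteValuationRing O] in
/-- `n • h(z) = h(n z)`. -/
theorem h580_nsmul_hom (h : FractionRing O →+ J) (n : ℕ) (z : FractionRing O) :
    n • h z = h (algebraMap O (FractionRing O) (n : O) * z) := by
  rw [← map_nsmul, nsmul_eq_mul, map_natCast]

end Layer

end Fermat.Agent.Ribet.H580.IAOld

end
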