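import Fermat.Agent.Ribet.H158.WallQEis
import Fermat.Prelude.Def_CuspForm_HeckeGaloisRepDatum

/-!
# Row 37, HARD case (Ihara avoidance), endgame **FIN = IA-OLD**: frozen Props
  (sub-architect helper580; definitions + Props only, the glue is in `IAOldGlue.lean`)

## What the Ihara-avoidance engine produces and what this cell turns it into
The support argument of the engine ends with a characteristic-`0` point of the Hecke algebra of
level `L = q·M'` whose Galois representation is UNRAMIFIED at `q`: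
a ring homomorphism `χ : 𝕋_{qM'}^S → O` (`O` a complete DVR, finite residue field of
characteristic `p`, characteristic `0`) and `ρ : G_ℚ → GL₂(O)` with
`charpoly ρ(Frob_ℓ) = X² - χ(T_ℓ) X + ℓ` (`ℓ ∉ S`), residually absolutely irreducible, with
`ρ(I_q) = 1`.  **IA-OLD** (`IAOldStatement`): then the eigensystem `χ mod 𝔪_O` occurs at level `M'`
(`Lowered M' p S a` for every integral `a` with `χ(T_ℓ) ≡ a_ℓ mod 𝔪_O`), i.e. "a `q`-new form is
ramified at `q`" (characteristic-zero Mazur principle).  `R3S`/`R3'` (on main) turn `Lowered`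
into `P.ModularRepOfLevel (L / q)`.

## Route (proved in `IAOldGlue.lean` from the three POW-leaves below)
`M` = the adic eigenmodule `S30.H330.eigenSub` of `χ` inside `Hom(K/O, J₀(qM')[p^∞])`.
1. BLR over the ring `O` (`IAOldAlg/IAOldMat`, Mathlib only) + Chebotarev: every `g ∈ G_ℚ` satisfies
   on `M` the characteristic polynomial of `ρ(g)`; hence `M` is a faithful module over
   `M₂(O) = O[ρ(G)]`: `I_q` acts trivially on `M`, and `Frob² = q²` on `M` is impossible
   (`det ρ(Frob) = q`, characteristic `0`).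
2. (W0) if some eigen-hom is not new, `α_*` or `β_*` moves it to level `M'`.
3. (Q4-pow) + NE: all values `f(y)`, `f ∈ M`, lie in the finite part `𝓕_n` (modulus `p^n`).
4. If some value is not in the split part `𝒮_n`: take the first layer `f(λ^{-j}O)` not contained in
   `𝒮_n`; an element `x` of it satisfies `T_ℓ x - a_ℓ x ∈ 𝒮_n`, `p x ∈ 𝒮_n`: (Q3-pow) lowers.
5. Otherwise all values are in `𝒮_n`: (Q2-pow) gives `Frob = q·u`, `u² = 1`, so `Frob² = q²` on `M`:
   contradiction with 1.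

## The three POW-leaves = the three targets of WALL-q (helper158) at modulus `p ^ n`
All definitions of `H884/SlopeSpec`, `H158/WallQSlope` are generic in the modulus; the leaves below
are the SAME statements with the modulus `p` replaced by `p ^ n`, in STRUCTURAL form (no Hecke
eigenvector with integral eigenvalues is assumed: over `O ≠ ℤ_p` there is none).
For `n = 1` they imply `H158.WallQ.Q2Statement`, `Q3Statement`, `EisSlopeQStatement`
(`q2_of_pow`, `q3_of_pow`, `eisSlopeQ_of_pow` below): ONE proof serves both walls.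
| leaf | Prop | content |
|---|---|---|
| FROB-AL-pow | `Q2PowStatement`        | `Q2For (p^n) q M' A (splitPartQ (p^n) …)` : `φ = q·u` on the new part of `𝒮_n` |
| RED-pow     | `Q3PowStatement`        | `x ∈ 𝓕_n ∖ 𝒮_n` new, `T_ℓ x - a_ℓ x ∈ 𝒮_n`, `p x ∈ 𝒮_n` ⟹ `Lowered M' p S a` |
| EIS-q-pow   | `EisSlopeQPowStatement` | `x` new, killed by `p^n`, `I`-fixed ⟹ `T_ℓ x - (ℓ+1) x ∈ 𝓕_n` for all `ℓ ∤ q M' p` |
-/

set_option autoImplicit false
set_option synthInstance.maxHeartbeats 400000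
set_option maxHeartbeats 1000000

noncomputable section

namespace Fermat.Agent.Ribet.H580.IAOld

open AlgebraicCurve ModularCurve Polynomial
open Fermat.Agent.S24 Fermat.Agent.A2.H708 Fermat.Agent.A2.H528
open Fermat.Agent.Ribet.Spec Fermat.Agent.Ribet.H944.Wall Fermat.Agent.Ribet.H884
open Fermat.Agent.Ribet.H158.WallQ

/-! ## The POW-leaves -/

/-- **(Q2-pow) FROB-AL at modulus `p ^ n`**: on the new part of the split part `𝒮_n` every
Frobenius at `A` acts as `q·u`, `u` additive, Galois-equivariant, involutive there. -/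
def Q2PowStatement : Prop :=
  ∀ (p q M' n : ℕ) [NeZero M'] [NeZero q] [NeZero (q * M')], p.Prime → 5 ≤ p → 0 < n →
    q.Prime → q ≠ 2 → q ≠ p → ¬ q ∣ M' →
    ∀ A : ValuationSubring Kbar, A.LiesOverPrime q →
      Q2For (p ^ n) q M' A (splitPartQ (p ^ n) q M' A)

/-- **(Q3-pow) RED**, quotient-eigen form, for two subgroups `𝒮 ≤ 𝓕` at modulus `p ^ n`:
a new class of `𝓕 ∖ 𝒮` which is a Hecke eigenvector MODULO `𝒮` with eigenvalues `a`, and with
`p x ∈ 𝒮`, has its eigensystem at level `M'` (its image in `Pic⁰(X₀(M')_{𝔽̄_q})²` is a nonzero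
eigenvector killed by `p`). -/
def Q3PowFor (p n q M' : ℕ) [NeZero M'] [NeZero q] [NeZero (q * M')]
    (𝓕 𝒮 : AddSubgroup (JZero (q * M'))) : Prop :=
  ∀ (S : Finset ℕ) (a : ℕ → ℤ), ∀ x ∈ 𝓕, x ∉ 𝒮 → IsNewTorsQ (p ^ n) q M' x →
    (∀ ℓ : Nat.Primes, (ℓ : ℕ) ∉ S → heckeOperatorBar (q * M') ℓ x - a ℓ • x ∈ 𝒮) →
    p • x ∈ 𝒮 → Lowered M' p S a

/-- **(Q3-pow) RED at modulus `p ^ n`** for `𝓕 = finPartQ`, `𝒮 = splitPartQ`. -/
def Q3PowStatement : Prop :=
  ∀ (p q M' n : ℕ) [NeZero M'] [NeZero q] [NeZero (q * M')], p.Prime → 5 ≤ p → 0 < n →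
    q.Prime → q ≠ 2 → q ≠ p → ¬ q ∣ M' →
    ∀ A : ValuationSubring Kbar, A.LiesOverPrime q →
      Q3PowFor p n q M' (finPartQ (p ^ n) q M' A) (splitPartQ (p ^ n) q M' A)

/-- **(EIS-q-pow)** at modulus `p ^ n`, structural: a new class killed by `p ^ n` and fixed by
inertia at `A` has Eisenstein slopes: `T_ℓ x - (ℓ + 1) x ∈ 𝓕_n` for every prime `ℓ ∤ q M' p`
(the component group at `q` is Eisenstein; tame node relation + the modular unit
`Δ(t^q)/Δ(t)`). -/
def EisSlopeQPowStatement : Prop :=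
  ∀ (p q M' n : ℕ) [NeZero M'] [NeZero q] [NeZero (q * M')], p.Prime → 5 ≤ p → 0 < n →
    q.Prime → q ≠ 2 → q ≠ p → ¬ q ∣ M' →
    ∀ A : ValuationSubring Kbar, A.LiesOverPrime q →
    ∀ x : JZero (q * M'), IsNewTorsQ (p ^ n) q M' x →
      (∀ σ ∈ A.inertiaSubgroupIn ℚ, σ • x = x) →
      IsEisModQ (p ^ n) q M' A (q * M' * p).primeFactors x

/-! ## The POW-leaves at `n = 1` are the leaves of WALL-q -/

theorem q2_of_pow (h : Q2PowStatement) : Q2Statement := by
  intro p q M' _ _ _ hp hp5 hq hq2 hqp hqM A hA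
  have := h p q M' 1 hp hp5 one_pos hq hq2 hqp hqM A hA
  rwa [pow_one] at this

theorem q3_of_pow (h : Q3PowStatement) : Q3Statement := by
  intro p q M' _ _ _ hp hp5 hq hq2 hqp hqM A hA S a x hxF hxS hnew heig
  have h1 := h p q M' 1 hp hp5 one_pos hq hq2 hqp hqM A hA
  rw [pow_one] at h1
  refine h1 S a x hxF hxS (by rw [pow_one]; exact hnew) (fun ℓ hℓ => ?_) ?_
  · rw [heig ℓ hℓ, sub_self]
    exact (splitPartQ p q M' A).zero_mem
  · rw [hnew.1]
    exact (splitPartQ p q M' A).zero_mem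

theorem eisSlopeQ_of_pow (h : EisSlopeQPowStatement) : EisSlopeQStatement := by
  intro p q M' _ _ _ hp hp5 hq hq2 hqp hqM A hA S a x hnew _ hfix
  have h1 := h p q M' 1 hp hp5 one_pos hq hq2 hqp hqM A hA x (by rw [pow_one]; exact hnew) hfix
  rw [pow_one] at h1
  exact ⟨_, h1⟩

/-- The three targets of WALL-q from the three POW-leaves. -/
theorem wallQTargets_of_pow (h2 : Q2PowStatement) (h3 : Q3PowStatement)
    (hE : EisSlopeQPowStatement) : WallQTargetsStatement :=
  wallQTargets_of (q2_of_pow h2) (q3_of_pow h3) (eisSlopeQ_of_pow hE)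

/-! ## IA-OLD -/

/-- **IA-OLD** (characteristic-zero Mazur principle, support form).
`χ` a point of the Hecke algebra of level `q M'` with values in a complete DVR `O` of
characteristic `0` and residue characteristic `p`, `ρ` a two-dimensional representation over `O`
with the Eichler–Shimura characteristic polynomials of `χ`, residually absolutely irreducible and
UNRAMIFIED at `q` (`q ∥ qM'`, `q ≠ p`); `a` integers with `χ(T_ℓ) ≡ a_ℓ` modulo the maximal ideal,
non-Eisenstein.  Then the eigensystem `a mod p` occurs at level `M'`. -/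
def IAOldStatement : Prop :=
  ∀ (p q M' : ℕ) [NeZero M'] [NeZero q] [NeZero (q * M')], p.Prime → 5 ≤ p → q.Prime →
    q ≠ 2 → q ≠ p → ¬ q ∣ M' →
  ∀ (S : Finset ℕ), p ∈ S → (∀ r : ℕ, r.Prime → r ∣ q * M' → r ∈ S) →
  ∀ (O : Type) [CommRing O] [IsDomain O] [IsDiscreteValuationRing O]
    [IsAdicComplete (IsLocalRing.maximalIdeal O) O] [Finite (IsLocalRing.ResidueField O)]
    [CharZero O], (p : O) ∈ IsLocalRing.maximalIdeal O →
  ∀ (χ : CuspForm.heckeAlgebra (q * M') 2 (↑S : Set ℕ) →+* O) (ρ : GaloisRepAdic O),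
    (∀ (ℓ : ℕ) (hℓ : ℓ.Prime) (hℓN : ¬ ℓ ∣ q * M') (hℓS : ℓ ∉ (↑S : Set ℕ)),
      ∀ B : ValuationSubring (AlgebraicClosure ℚ), B.LiesOverPrime ℓ →
        ∀ σ : GQ, B.IsFrobeniusAt σ ℓ →
          LinearMap.charpoly (ρ.ρ σ) =
            X ^ 2 - C (χ (CuspForm.heckeAlgebra.T hℓ hℓN hℓS)) * X + C ((ℓ : O))) →
    ρ.residual.IsAbsolutelyIrreducible →
    ρ.IsUnramifiedAt q →
    ∀ a : ℕ → ℤ, NonEisAway p a →
      (∀ (ℓ : ℕ) (hℓ : ℓ.Prime) (hℓN : ¬ ℓ ∣ q * M') (hℓS : ℓ ∉ (↑S : Set ℕ)),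
        χ (CuspForm.heckeAlgebra.T hℓ hℓN hℓS) - ((a ℓ : ℤ) : O) ∈ IsLocalRing.maximalIdeal O) →
      Lowered M' p S a

end Fermat.Agent.Ribet.H580.IAOld

end
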