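import Fermat.Agent.Ribet.H580.IAOldRel
import Fermat.Agent.Ribet.H580.IAOldLayer
import Fermat.Agent.Ribet.H580.IAOldSpec
import Fermat.Agent.S30.H330.AdicDefs

/-!
# IA-OLD: the glue (helper580)

`iaOld_core` : the three POW-leaves of `IAOldSpec.lean` + the standard inputs of the adic module
layer of S30 (weak Chebotarev, torsion relations = Eichler–Shimura on `J₀(N)[p^∞]`, smoothness,
Galois–Hecke commutation, finiteness of `J₀(N)[p]`, a nonzero eigen-hom `K/O → J₀(N)`), a place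
over `q` with a Frobenius  ⟹  the conclusion of `IAOldStatement` for given `(χ, ρ)`.

Route: see `IAOldSpec.lean`.  `M = S30.H330.eigenSub` with its Galois action `π = galRep`.
-/

set_option autoImplicit false
set_option synthInstance.maxHeartbeats 400000
set_option maxHeartbeats 1000000

noncomputable section

namespace Fermat.Agent.Ribet.H580.IAOld

open AlgebraicCurve ModularCurve Polynomial
open Fermat.Agent.Ribet.Spec Fermat.Agent.Ribet.H944.Wall Fermat.Agent.Ribet.H884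
open Fermat.Agent.Ribet.H158.WallQ Fermat.Agent.Ribet.H801
open Fermat.Agent.S30.H330

/-- The family of Hecke operators at the primes outside `S`. -/
def h580_heckeFam (N : ℕ) [NeZero N] (S : Finset ℕ) :
    {ℓ : Nat.Primes // (ℓ : ℕ) ∉ S} → JZero N →+ JZero N :=
  fun i => (heckeOperatorBar N i.1).toAddMonoidHom

/-- The family of eigenvalues of `χ` at the primes outside `S`. -/
def h580_eigFam {N : ℕ} [NeZero N] {S : Finset ℕ} {O : Type} [CommRing O]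
    (χ : CuspForm.heckeAlgebra N 2 (↑S : Set ℕ) →+* O) :
    {ℓ : Nat.Primes // (ℓ : ℕ) ∉ S} → O :=
  fun i => eigenvalue χ (i.1 : ℕ)

section Occurs

variable {O : Type} [CommRing O] [IsDomain O] [IsDiscreteValuationRing O]

/-- **(W0)**: an eigen-hom with a nonzero image at level `M'` gives `OccursIn`. -/
theorem h580_occurs_of_hom {p M' : ℕ} [NeZero M'] (hpO : (p : O) ∈ IsLocalRing.maximalIdeal O)
    (S' : Finset ℕ) (a : ℕ → ℤ) (e : ℕ → O)
    (hc : ∀ ℓ : Nat.Primes, (ℓ : ℕ) ∉ S' → e ℓ - ((a ℓ : ℤ) : O) ∈ IsLocalRing.maximalIdeal O)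
    (h : FractionRing O →+ JZero M')
    (h0 : ∀ r : O, h (algebraMap O (FractionRing O) r) = 0)
    (hT : ∀ ℓ : Nat.Primes, (ℓ : ℕ) ∉ S' → ∀ z,
      heckeOperatorBar M' ℓ (h z) = h (algebraMap O (FractionRing O) (e ℓ) * z))
    (z₀ : FractionRing O) (hz₀ : h z₀ ≠ 0) : OccursIn M' p S' a := by
  obtain ⟨ϖ, hϖ⟩ := IsDiscreteValuationRing.exists_irreducible O
  obtain ⟨n, -, hn⟩ := h580_exists_inLayer hϖ z₀
  obtain ⟨z, -, hz, hzc⟩ := h580_first_layer hϖ h ⊥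
    (fun r => by rw [h0]; exact AddSubgroup.zero_mem _) n z₀ hn
    (fun hmem => hz₀ (AddSubgroup.mem_bot.mp hmem))
  refine ⟨h z, fun h' => hz (by rw [h']; exact AddSubgroup.zero_mem _), ?_, fun ℓ hℓ => ?_⟩
  · rw [h580_nsmul_hom]
    exact AddSubgroup.mem_bot.mp (hzc _ hpO)
  · have h1 := h580_hom_sub_zsmul h (e ℓ) (a ℓ) z
    rw [AddSubgroup.mem_bot.mp (hzc _ (hc ℓ hℓ))] at h1
    rw [hT ℓ hℓ z]
    exact sub_eq_zero.mp h1

end Occurs

/-! ## The eigenmodule and its Galois action -/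

section Module

variable {N : ℕ} [NeZero N] {S : Finset ℕ}
variable {O : Type} [CommRing O] [IsDomain O] [IsDiscreteValuationRing O]

theorem h580_galois_hecke (hGH : GaloisHeckeStatement N) :
    ∀ (i : {ℓ : Nat.Primes // (ℓ : ℕ) ∉ S}) (σ : GQ) (x : JZero N),
      σ • h580_heckeFam N S i x = h580_heckeFam N S i (σ • x) :=
  fun i σ x => hGH σ i.1 x

/-- The Galois action on the eigenmodule of `χ`. -/
def h580_pi (hGH : GaloisHeckeStatement N) (χ : CuspForm.heckeAlgebra N 2 (↑S : Set ℕ) →+* O) :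
    GQ →* Module.End O (eigenSub (h580_heckeFam N S) (h580_eigFam χ)) :=
  galRep (G := GQ) (J := JZero N) (t := h580_heckeFam N S) (a := h580_eigFam χ)
    (h580_galois_hecke hGH)

omit [IsDomain O] [IsDiscreteValuationRing O] in
theorem h580_pi_hom (hGH : GaloisHeckeStatement N)
    (χ : CuspForm.heckeAlgebra N 2 (↑S : Set ℕ) →+* O) (σ : GQ)
    (g : eigenSub (h580_heckeFam N S) (h580_eigFam χ)) (x : FractionRing O) :
    ((h580_pi hGH χ σ g : eigenSub (h580_heckeFam N S) (h580_eigFam χ)) :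
      SrcHom O (JZero N)).hom x = σ • (g : SrcHom O (JZero N)).hom x := rfl

omit [IsDomain O] [IsDiscreteValuationRing O] in
/-- The eigenvalue of `χ` at a prime outside `S`. -/
theorem h580_eigenvalue_eq (hNS : ∀ r : ℕ, r.Prime → r ∣ N → r ∈ S)
    (χ : CuspForm.heckeAlgebra N 2 (↑S : Set ℕ) →+* O) (ℓ : ℕ) (hℓ : ℓ.Prime) (hℓS : ℓ ∉ S) :
    ∃ (hℓN : ¬ ℓ ∣ N) (hℓS' : ℓ ∉ (↑S : Set ℕ)),
      eigenvalue χ ℓ = χ (CuspForm.heckeAlgebra.T hℓ hℓN hℓS') := by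
  have hℓN : ¬ ℓ ∣ N := fun h => hℓS (hNS ℓ hℓ h)
  have hℓS' : ℓ ∉ (↑S : Set ℕ) := fun h => hℓS (Finset.mem_coe.mp h)
  refine ⟨hℓN, hℓS', ?_⟩
  unfold Fermat.Agent.S30.H330.eigenvalue
  rw [dif_pos ⟨hℓ, hℓN, hℓS'⟩]

omit [IsDomain O] [IsDiscreteValuationRing O] in
/-- Hecke operators on the values of an element of the eigenmodule. -/
theorem h580_hecke_val (χ : CuspForm.heckeAlgebra N 2 (↑S : Set ℕ) →+* O)
    (g : eigenSub (h580_heckeFam N S) (h580_eigFam χ)) (ℓ : Nat.Primes) (hℓ : (ℓ : ℕ) ∉ S)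
    (z : FractionRing O) :
    heckeOperatorBar N ℓ (g.1.hom z) =
      g.1.hom (algebraMap O (FractionRing O) (eigenvalue χ ℓ) * z) :=
  g.2.2 ⟨ℓ, hℓ⟩ z

/-- Adic continuity of the Galois action on the eigenmodule. -/
theorem h580_galRep_cont {p : ℕ} (hpO : (p : O) ∈ IsLocalRing.maximalIdeal O)
    (hSm : SmoothStatement N) (hGH : GaloisHeckeStatement N)
    (hF : {x : JZero N | p • x = 0}.Finite)
    (χ : CuspForm.heckeAlgebra N 2 (↑S : Set ℕ) →+* O) :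
    GaloisActionIsAdicContinuous O (h580_pi hGH χ) := by
  classical
  obtain ⟨ϖ, hϖ⟩ := IsDiscreteValuationRing.exists_irreducible O
  intro n
  have hfinn := finite_pow_torsion hF n
  choose Lx hLx using hSm
  have hfd : ∀ x, FiniteDimensional ℚ (Lx x) := fun x => (hLx x).1
  refine ⟨⨆ x ∈ hfinn.toFinset, Lx x,
    IntermediateField.finiteDimensional_iSup_of_finset, ?_⟩
  intro σ hσ v
  have hfix : ∀ x : JZero N, p ^ n • x = 0 → σ • x = x := by
    intro x hx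
    refine (hLx x).2 σ fun y hy => hσ y ?_
    have hle : Lx x ≤ ⨆ x ∈ hfinn.toFinset, Lx x := by
      refine le_iSup₂_of_le x ?_ le_rfl
      simpa using hx
    exact hle hy
  apply mem_pow_smul_top_of_kill hϖ n
  intro y
  show ((h580_pi hGH χ σ v :
      eigenSub (h580_heckeFam N S) (h580_eigFam χ)) : SrcHom O (JZero N)).hom _ -
    (v : SrcHom O (JZero N)).hom _ = 0
  rw [h580_pi_hom, hfix _ (pow_smul_hom_div_eq_zero hpO hϖ n v.2 y), sub_self]

/-- The Eichler–Shimura relation on the eigenmodule. -/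
theorem h580_galRep_frob {p : ℕ} (hp : p.Prime) (hpS : p ∈ S)
    (hNS : ∀ r : ℕ, r.Prime → r ∣ N → r ∈ S)
    (hpO : (p : O) ∈ IsLocalRing.maximalIdeal O)
    (hT : TorsionRelations N p) (hGH : GaloisHeckeStatement N)
    (χ : CuspForm.heckeAlgebra N 2 (↑S : Set ℕ) →+* O)
    (ℓ : ℕ) (hℓ : ℓ.Prime) (hℓS : ℓ ∉ S) (A : ValuationSubring (AlgebraicClosure ℚ))
    (hA : A.LiesOverPrime ℓ) (τ : GQ) (hτ : A.IsFrobeniusAt τ ℓ) :
    h580_pi hGH χ τ * h580_pi hGH χ τ - eigenvalue χ ℓ • h580_pi hGH χ τ +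
      (ℓ : O) • (1 : Module.End O (eigenSub (h580_heckeFam N S) (h580_eigFam χ))) = 0 := by
  have hℓN : ¬ ℓ ∣ N := fun h => hℓS (hNS ℓ hℓ h)
  have hℓp : ℓ ≠ p := fun h => hℓS (h ▸ hpS)
  have hdvd : ¬ ℓ ∣ N * p := by
    intro hdiv
    rcases (Nat.Prime.dvd_mul hℓ).1 hdiv with h1 | h1
    · exact hℓN h1
    · exact hℓp ((Nat.prime_dvd_prime_iff_eq hℓ hp).1 h1)
  have hσ := (hT ℓ hℓ hdvd A hA).2 τ hτ
  apply LinearMap.ext
  intro g
  simp only [LinearMap.add_apply, LinearMap.sub_apply, LinearMap.smul_apply,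
    Module.End.mul_apply, Module.End.one_apply, LinearMap.zero_apply]
  apply Subtype.ext
  apply SrcHom.ext
  intro x
  have h := hσ _ (exists_pow_smul_hom_eq_zero hpO g.2 x)
  show τ • τ • (g : SrcHom O (JZero N)).hom x -
        τ • (g : SrcHom O (JZero N)).hom (algebraMap O (FractionRing O) (eigenvalue χ ℓ) * x) +
        (g : SrcHom O (JZero N)).hom (algebraMap O (FractionRing O) (ℓ : O) * x) = 0
  rw [← h580_hecke_val χ g ⟨ℓ, hℓ⟩ hℓS x, ← h580_nsmul_hom]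
  have e := hGH τ ⟨ℓ, hℓ⟩ ((g : SrcHom O (JZero N)).hom x)
  rw [← e] at h
  exact h

end Module

/-! ## The core -/

section Core

variable {p q M' : ℕ} [NeZero M'] [NeZero q] [NeZero (q * M')] {S : Finset ℕ}
variable {O : Type} [CommRing O] [IsDomain O] [IsDiscreteValuationRing O]
  [IsAdicComplete (IsLocalRing.maximalIdeal O) O] [CharZero O]

/-- **IA-OLD, core**: for given `(χ, ρ)`, from the three POW-leaves and the standard inputs. -/
theorem iaOld_core (hp : p.Prime) (hp5 : 5 ≤ p) (hq : q.Prime) (hq2 : q ≠ 2) (hqp : q ≠ p)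
    (hqM : ¬ q ∣ M')
    (h2 : Q2PowStatement) (h3 : Q3PowStatement) (hE : EisSlopeQPowStatement)
    (hcheb : Fermat.Agent.S30.H990.ChebWeak)
    {A : ValuationSubring (AlgebraicClosure ℚ)} (hA : A.LiesOverPrime q) {φ : GQ}
    (hφ : A.IsFrobeniusAt φ q)
    (hT : TorsionRelations (q * M') p) (hSm : SmoothStatement (q * M'))
    (hGH : GaloisHeckeStatement (q * M')) (hF : {x : JZero (q * M') | p • x = 0}.Finite)
    (hpS : p ∈ S) (hNS : ∀ r : ℕ, r.Prime → r ∣ q * M' → r ∈ S)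
    (hpO : (p : O) ∈ IsLocalRing.maximalIdeal O)
    (χ : CuspForm.heckeAlgebra (q * M') 2 (↑S : Set ℕ) →+* O) (ρ : GaloisRepAdic O)
    (hchar : ∀ (ℓ : ℕ) (hℓ : ℓ.Prime) (hℓN : ¬ ℓ ∣ q * M') (hℓS : ℓ ∉ (↑S : Set ℕ)),
      ∀ B : ValuationSubring (AlgebraicClosure ℚ), B.LiesOverPrime ℓ →
        ∀ σ : GQ, B.IsFrobeniusAt σ ℓ →
          LinearMap.charpoly (ρ.ρ σ) =
            X ^ 2 - C (χ (CuspForm.heckeAlgebra.T hℓ hℓN hℓS)) * X + C ((ℓ : O)))
    (habs : ρ.residual.IsAbsolutelyIrreducible)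
    (hunr : ρ.IsUnramifiedAt q)
    (f₀ : FractionRing O →+ JZero (q * M'))
    (hf0 : ∀ r : O, f₀ (algebraMap O (FractionRing O) r) = 0) (hfne : f₀ ≠ 0)
    (hfe : ∀ ℓ : Nat.Primes, (ℓ : ℕ) ∉ S → ∀ x,
      heckeOperatorBar (q * M') ℓ (f₀ x) =
        f₀ (algebraMap O (FractionRing O) (eigenvalue χ ℓ) * x))
    (a : ℕ → ℤ) (hNE : NonEisAway p a)
    (hcong : ∀ (ℓ : ℕ) (hℓ : ℓ.Prime) (hℓN : ¬ ℓ ∣ q * M') (hℓS : ℓ ∉ (↑S : Set ℕ)),
      χ (CuspForm.heckeAlgebra.T hℓ hℓN hℓS) - ((a ℓ : ℤ) : O) ∈ IsLocalRing.maximalIdeal O) :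
    Lowered M' p S a := by
  classical
  have : Fact p.Prime := ⟨hp⟩
  obtain ⟨ϖ, hϖ⟩ := IsDiscreteValuationRing.exists_irreducible O
  -- the eigenmodule
  have : NoZeroSMulDivisors O (eigenSub (h580_heckeFam (q * M') S) (h580_eigFam χ)) :=
    h580_noZeroSMulDivisors_eigenSub
  have : IsHausdorff (IsLocalRing.maximalIdeal O)
      (eigenSub (h580_heckeFam (q * M') S) (h580_eigFam χ)) := isHausdorff_eigenSub
  have hfm : SrcHom.of f₀ ∈ eigenSub (h580_heckeFam (q * M') S) (h580_eigFam χ) :=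
    ⟨hf0, fun i x => hfe i.1 i.2 x⟩
  have : Nontrivial (eigenSub (h580_heckeFam (q * M') S) (h580_eigFam χ)) := by
    refine ⟨⟨⟨SrcHom.of f₀, hfm⟩, 0, ?_⟩⟩
    intro h
    apply hfne
    have := congrArg (fun w : eigenSub (h580_heckeFam (q * M') S) (h580_eigFam χ) =>
      (w : SrcHom O (JZero (q * M')))) h
    exact this
  -- congruences of eigenvalues
  have hc : ∀ ℓ : Nat.Primes, (ℓ : ℕ) ∉ S →
      eigenvalue χ (ℓ : ℕ) - ((a ℓ : ℤ) : O) ∈ IsLocalRing.maximalIdeal O := by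
    intro ℓ hℓ
    obtain ⟨hℓN, hℓS', he⟩ := h580_eigenvalue_eq hNS χ ℓ ℓ.2 hℓ
    rw [he]
    exact hcong ℓ ℓ.2 hℓN hℓS'
  -- REL
  have hπc := h580_galRep_cont hpO hSm hGH hF χ
  obtain ⟨hrel, hdetq⟩ := h580_rel_of_cheb hcheb hpO S hpS (h580_pi hGH χ) hπc (h580_rhoMat ρ)
    (h580_rhoMat_cont ρ) (fun ℓ => eigenvalue χ ℓ)
    (fun ℓ hℓ hℓS B hB τ hτ => h580_galRep_frob hp hpS hNS hpO hT hGH χ ℓ hℓ hℓS B hB τ hτ)
    (fun ℓ hℓ hℓS B hB τ hτ => by
      obtain ⟨hℓN, hℓS', he⟩ := h580_eigenvalue_eq hNS χ ℓ hℓ hℓS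
      rw [he]
      exact h580_rhoMat_of_charpoly ρ τ _ _ (hchar ℓ hℓ hℓN hℓS' B hB τ hτ))
  have hspan := h580_rhoMat_span ρ habs
  -- inertia at `A` acts trivially on all values
  have hI : ∀ σ ∈ A.inertiaSubgroupIn ℚ,
      ∀ (g : eigenSub (h580_heckeFam (q * M') S) (h580_eigFam χ)) (z : FractionRing O),
        σ • g.1.hom z = g.1.hom z := by
    intro σ hσ g z
    have h1 : h580_pi hGH χ σ = 1 :=
      h580_trivial_of_trivial two_ne_zero (h580_rhoMat ρ) hspan (h580_pi hGH χ) hrel σ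
        (h580_rhoMat_one_of ρ σ (hunr A hA σ hσ))
    rw [← h580_pi_hom hGH χ σ g z, h1]
    rfl
  have hdeg := isDegPair_alphaL_betaL q M' hq
  -- (W0) some value is not new
  by_cases hW : ∃ (g : eigenSub (h580_heckeFam (q * M') S) (h580_eigFam χ))
      (z : FractionRing O), alphaL q M' (g.1.hom z) ≠ 0 ∨ betaL q M' (g.1.hom z) ≠ 0
  · refine ⟨S ∪ {q}, Finset.subset_union_left, Or.inl ?_⟩
    have hc' : ∀ ℓ : Nat.Primes, (ℓ : ℕ) ∉ S ∪ {q} →
        eigenvalue χ (ℓ : ℕ) - ((a ℓ : ℤ) : O) ∈ IsLocalRing.maximalIdeal O := fun ℓ hℓ =>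
      hc ℓ (fun h => hℓ (Finset.mem_union_left _ h))
    obtain ⟨g, z, hz | hz⟩ := hW
    · refine h580_occurs_of_hom hpO (S ∪ {q}) a (fun ℓ => eigenvalue χ ℓ) hc'
        ((alphaL q M').comp g.1.hom) (fun r => ?_) (fun ℓ hℓ x => ?_) z hz
      · rw [AddMonoidHom.comp_apply, g.2.1, map_zero]
      · rw [Finset.mem_union, not_or] at hℓ
        rw [AddMonoidHom.comp_apply, AddMonoidHom.comp_apply, ← hdeg.hecke_left ℓ hℓ.2,
          h580_hecke_val χ g ℓ hℓ.1]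
    · refine h580_occurs_of_hom hpO (S ∪ {q}) a (fun ℓ => eigenvalue χ ℓ) hc'
        ((betaL q M').comp g.1.hom) (fun r => ?_) (fun ℓ hℓ x => ?_) z hz
      · rw [AddMonoidHom.comp_apply, g.2.1, map_zero]
      · rw [Finset.mem_union, not_or] at hℓ
        rw [AddMonoidHom.comp_apply, AddMonoidHom.comp_apply, ← hdeg.hecke_right ℓ hℓ.2,
          h580_hecke_val χ g ℓ hℓ.1]
  -- all values are new
  have hnew : ∀ (g : eigenSub (h580_heckeFam (q * M') S) (h580_eigFam χ)) (n : ℕ)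
      (z : FractionRing O), h580_InLayer ϖ n z → IsNewTorsQ (p ^ n) q M' (g.1.hom z) := by
    intro g n z hz
    refine ⟨h580_pow_smul_of_inLayer hpO hϖ g.2 hz, ?_, ?_⟩
    · by_contra hx
      exact hW ⟨g, z, Or.inl hx⟩
    · by_contra hx
      exact hW ⟨g, z, Or.inr hx⟩
  -- (NE) a prime with `χ(T_ℓ) - (ℓ + 1)` a unit
  obtain ⟨ℓ₀, hℓ₀, hℓ₀S, hndvd⟩ := hNE (S ∪ (q * M' * p).primeFactors)
  have hℓ₀1 : ℓ₀ ∉ S := fun h => hℓ₀S (Finset.mem_union_left _ h)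
  have hℓ₀2 : ℓ₀ ∉ (q * M' * p).primeFactors := fun h => hℓ₀S (Finset.mem_union_right _ h)
  have hu : IsUnit (eigenvalue χ ℓ₀ - ((ℓ₀ + 1 : ℕ) : O)) := by
    by_contra hnu
    have hmem : eigenvalue χ ℓ₀ - ((ℓ₀ + 1 : ℕ) : O) ∈ IsLocalRing.maximalIdeal O :=
      (IsLocalRing.mem_maximalIdeal _).mpr hnu
    have h1 := hc ⟨ℓ₀, hℓ₀⟩ hℓ₀1
    have h2' : ((a ℓ₀ - ((ℓ₀ : ℤ) + 1) : ℤ) : O) ∈ IsLocalRing.maximalIdeal O := by
      have e : ((a ℓ₀ - ((ℓ₀ : ℤ) + 1) : ℤ) : O) =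
          (eigenvalue χ ℓ₀ - ((ℓ₀ + 1 : ℕ) : O)) - (eigenvalue χ ℓ₀ - ((a ℓ₀ : ℤ) : O)) := by
        push_cast
        ring
      rw [e]
      exact Ideal.sub_mem _ hmem h1
    exact h580_intCast_not_mem hp hpO _ hndvd h2'
  obtain ⟨w, hw⟩ := hu.exists_right_inv
  -- (EIS) all values lie in the finite part
  have hFin : ∀ (g : eigenSub (h580_heckeFam (q * M') S) (h580_eigFam χ)) (n : ℕ), 0 < n →
      ∀ z : FractionRing O, h580_InLayer ϖ n z → g.1.hom z ∈ finPartQ (p ^ n) q M' A := by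
    intro g n hn z hz
    have hz' := h580_inLayer_mul hz w
    have hEis := hE p q M' n hp hp5 hn hq hq2 hqp hqM A hA
      (g.1.hom (algebraMap O (FractionRing O) w * z)) (hnew g n _ hz')
      (fun σ hσ => hI σ hσ g _) ⟨ℓ₀, hℓ₀⟩ hℓ₀2
    have e : heckeOperatorBar (q * M') ⟨ℓ₀, hℓ₀⟩
          (g.1.hom (algebraMap O (FractionRing O) w * z)) -
        (ℓ₀ + 1) • g.1.hom (algebraMap O (FractionRing O) w * z) = g.1.hom z := by
      rw [h580_hecke_val χ g ⟨ℓ₀, hℓ₀⟩ hℓ₀1, h580_hom_sub_nsmul, ← mul_assoc, ← map_mul, hw,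
        map_one, one_mul]
    rw [← e]
    exact hEis
  by_cases hB : ∀ (g : eigenSub (h580_heckeFam (q * M') S) (h580_eigFam χ)) (n : ℕ), 0 < n →
      ∀ z : FractionRing O, h580_InLayer ϖ n z → g.1.hom z ∈ splitPartQ (p ^ n) q M' A
  · -- Case B: all values in the split part: `Frob² = q²`, contradiction
    exfalso
    have hsq : h580_pi hGH χ φ * h580_pi hGH χ φ =
        ((q : O) ^ 2) • (1 : Module.End O (eigenSub (h580_heckeFam (q * M') S) (h580_eigFam χ))) := by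
      apply LinearMap.ext
      intro g
      apply Subtype.ext
      apply SrcHom.ext
      intro z
      obtain ⟨n, hn, hz⟩ := h580_exists_inLayer hϖ z
      obtain ⟨u, huG, huu, hφu⟩ := h2 p q M' n hp hp5 hn hq hq2 hqp hqM A hA
      have hx𝒮 := hB g n hn z hz
      have hxnew := hnew g n z hz
      have h1 : φ • g.1.hom z = q • u (g.1.hom z) := hφu φ hφ _ hx𝒮 hxnew
      have h4 : φ • φ • g.1.hom z = (q ^ 2) • g.1.hom z := by
        calc φ • φ • g.1.hom z = φ • (q • u (g.1.hom z)) := by rw [h1]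
          _ = q • (φ • u (g.1.hom z)) :=
            (DistribSMul.toAddMonoidHom (JZero (q * M')) φ).map_nsmul _ _
          _ = q • u (φ • g.1.hom z) := by rw [huG]
          _ = q • u (q • u (g.1.hom z)) := by rw [h1]
          _ = q • (q • u (u (g.1.hom z))) := by rw [map_nsmul]
          _ = q • (q • g.1.hom z) := by rw [huu _ hx𝒮 hxnew]
          _ = (q ^ 2) • g.1.hom z := by rw [smul_smul, pow_two]
      show ((h580_pi hGH χ φ (h580_pi hGH χ φ g) :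
          eigenSub (h580_heckeFam (q * M') S) (h580_eigFam χ)) : SrcHom O (JZero (q * M'))).hom z =
        (g : SrcHom O (JZero (q * M'))).hom (algebraMap O (FractionRing O) ((q : O) ^ 2) * z)
      rw [h580_pi_hom, h580_pi_hom, h4, h580_nsmul_hom]
      push_cast
      rfl
    exact h580_no_scalar_sq (h580_rhoMat ρ) hspan (h580_pi hGH χ) hrel q hq.two_le φ hsq
      (hdetq q hq hqp A hA φ hφ)
  · -- Case A: some value is not in the split part: first layer + (Q3-pow)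
    push Not at hB
    obtain ⟨g, n, hn, z₀, hz₀, hz₀𝒮⟩ := hB
    obtain ⟨z, hz, hz𝒮, hzc⟩ := h580_first_layer hϖ g.1.hom (splitPartQ (p ^ n) q M' A)
      (fun r => by rw [g.2.1]; exact AddSubgroup.zero_mem _) n z₀ hz₀ hz₀𝒮
    refine h3 p q M' n hp hp5 hn hq hq2 hqp hqM A hA S a (g.1.hom z) (hFin g n hn z hz) hz𝒮
      (hnew g n z hz) (fun ℓ hℓ => ?_) ?_
    · rw [h580_hecke_val χ g ℓ hℓ, h580_hom_sub_zsmul]
      exact hzc _ (hc ℓ hℓ)
    · rw [h580_nsmul_hom]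
      exact hzc _ hpO

end Core

end Fermat.Agent.Ribet.H580.IAOld

end
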