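import Fermat.Agent.Ribet.H580.IAOldInst
import Fermat.Agent.Ribet.H580.IAOldFinal
import Fermat.Agent.Ribet.H765.IAOldEis

/-!
# IA-OLD at GOOD LEVELS (helper580)

The reduction infrastructure at `q` exists at the good levels `5 ≤ q ∨ (q = 3 ∧ 2 ∣ M')`
(`H158.WallQ.WallQHyp`).  Here:

* `iaOld_of_inst`      : IA-OLD for a given `(p, q, M')` from the three POW-leaves at that instance
                         (all places `A` over `q`, all torsion orders `p ^ n`); every standard input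
                         is discharged from main (same imports as `IAOldFinal.lean`);
* `IAOldGoodStatement` : `IAOldStatement` with the extra hypothesis `5 ≤ q ∨ (q = 3 ∧ 2 ∣ M')`;
* `iaOldGood_of_good`  : `H158.WallQ.Q2GoodStatement → Q3PowStatement →
                           H765.EisSlopeQStructGoodStatement → IAOldGoodStatement`.
(`Q3PowStatement` is closed on main: `Ribet.H708.Q3Pow.q3Pow`.)
-/

set_option autoImplicit false
set_option synthInstance.maxHeartbeats 400000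
set_option maxHeartbeats 1000000
set_option linter.overlappingInstances false

noncomputable section

namespace Fermat.Agent.Ribet.H580.IAOld

open AlgebraicCurve ModularCurve Polynomial
open Fermat.Agent.Ribet.Spec Fermat.Agent.Ribet.H944.Wall Fermat.Agent.Ribet.H884
open Fermat.Agent.Ribet.H158.WallQ
open Fermat.Agent.S30.H330

/-- **IA-OLD at an instance** `(p, q, M')`, all standard inputs discharged. -/
theorem iaOld_of_inst {p q M' : ℕ} [NeZero M'] [NeZero q] [NeZero (q * M')]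
    (hp : p.Prime) (hq : q.Prime) (hqp : q ≠ p)
    (h2 : ∀ A : ValuationSubring (AlgebraicClosure ℚ), A.LiesOverPrime q →
      ∀ n : ℕ, 0 < n → Q2For (p ^ n) q M' A (splitPartQ (p ^ n) q M' A))
    (h3 : ∀ A : ValuationSubring (AlgebraicClosure ℚ), A.LiesOverPrime q →
      ∀ n : ℕ, 0 < n →
        Q3PowFor p n q M' (finPartQ (p ^ n) q M' A) (splitPartQ (p ^ n) q M' A))
    (hE : ∀ A : ValuationSubring (AlgebraicClosure ℚ), A.LiesOverPrime q →
      ∀ n : ℕ, 0 < n → ∀ x : JZero (q * M'), IsNewTorsQ (p ^ n) q M' x →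
        (∀ σ ∈ A.inertiaSubgroupIn ℚ, σ • x = x) →
        IsEisModQ (p ^ n) q M' A (q * M' * p).primeFactors x)
    {S : Finset ℕ} (hpS : p ∈ S) (hNS : ∀ r : ℕ, r.Prime → r ∣ q * M' → r ∈ S)
    {O : Type} [CommRing O] [IsDomain O] [IsDiscreteValuationRing O]
    [IsAdicComplete (IsLocalRing.maximalIdeal O) O] [CharZero O]
    (hpO : (p : O) ∈ IsLocalRing.maximalIdeal O)
    (χ : CuspForm.heckeAlgebra (q * M') 2 (↑S : Set ℕ) →+* O) (ρ : GaloisRepAdic O)
    (hchar : ∀ (ℓ : ℕ) (hℓ : ℓ.Prime) (hℓN : ¬ ℓ ∣ q * M') (hℓS : ℓ ∉ (↑S : Set ℕ)),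
      ∀ B : ValuationSubring (AlgebraicClosure ℚ), B.LiesOverPrime ℓ →
        ∀ σ : GQ, B.IsFrobeniusAt σ ℓ →
          LinearMap.charpoly (ρ.ρ σ) =
            X ^ 2 - C (χ (CuspForm.heckeAlgebra.T hℓ hℓN hℓS)) * X + C ((ℓ : O)))
    (habs : ρ.residual.IsAbsolutelyIrreducible)
    (hunr : ρ.IsUnramifiedAt q)
    (a : ℕ → ℤ) (hNE : NonEisAway p a)
    (hcong : ∀ (ℓ : ℕ) (hℓ : ℓ.Prime) (hℓN : ¬ ℓ ∣ q * M') (hℓS : ℓ ∉ (↑S : Set ℕ)),
      χ (CuspForm.heckeAlgebra.T hℓ hℓN hℓS) - ((a ℓ : ℤ) : O) ∈ IsLocalRing.maximalIdeal O) :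
    Lowered M' p S a := by
  haveI : Fact p.Prime := ⟨hp⟩
  haveI : NeZero p := ⟨hp.ne_zero⟩
  obtain ⟨A, hA, φ, hφ⟩ := Fermat.Agent.Ribet.H584.places q hq
  have hpk : ∀ n, Fermat.Agent.S30.H450.KumPackage (q * M') (p ^ n) := fun n =>
    haveI : NeZero (p ^ n) := ⟨pow_ne_zero n hp.ne_zero⟩
    Fermat.Agent.S30.Chain.kumPackage (q * M') (p ^ n)
  have hK : KummerInjStatement (q * M') p := kummerInjStatement_of_packages hpk
  have hF : FinStatement (q * M') p :=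
    finStatement_of_onto (kumPackage_one hpk).uniq
      (fun x hx => Fermat.Agent.S30.H810.exists_isKum_of_torsion (q * M') p hx)
  obtain ⟨f₀, hf0, hfne, hfe⟩ :=
    exists_eigenHom_of_inj hpS hNS hpO χ hK (parEigenStatement hNS χ)
  exact iaOld_core_inst hp hq hqp
    (Fermat.Agent.S30.H990.chebWeak_of_frobeniusDivision Fermat.Agent.Lib.Cheb.frobeniusDivision)
    hA hφ (h2 A hA) (h3 A hA) (hE A hA)
    (Fermat.Agent.S30.H694.torsionRelations_of_nodes
      (fun M _ _ _ hℓM A hA => Fermat.Agent.S18.Mod.H216.node_mod M hℓM A hA)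
      (fun M => Fermat.Agent.S18.H438.node_alg M) (q * M') p)
    (Fermat.Agent.S30.H990.smoothStatement (q * M'))
    (Fermat.Agent.S30.H990.galoisHeckeStatement (q * M')) hF hpS hNS hpO χ ρ hchar habs hunr
    f₀ hf0 hfne hfe a hNE hcong

/-- **IA-OLD at good levels**: `IAOldStatement` with the hypothesis
`5 ≤ q ∨ (q = 3 ∧ 2 ∣ M')`. -/
def IAOldGoodStatement : Prop :=
  ∀ (p q M' : ℕ) [NeZero M'] [NeZero q] [NeZero (q * M')], p.Prime → 5 ≤ p → q.Prime →
    q ≠ 2 → q ≠ p → ¬ q ∣ M' → (5 ≤ q ∨ (q = 3 ∧ 2 ∣ M')) →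
  ∀ (S : Finset ℕ), p ∈ S → (∀ r : ℕ, r.Prime → r ∣ q * M' → r ∈ S) →
  ∀ (O : Type) [CommRing O] [IsDomain O] [IsDiscreteValuationRing O]
    [IsAdicComplete (IsLocalRing.maximalIdeal O) O] [Finite (IsLocalRing.ResidueField O)]
    [CharZero O], (p : O) ∈ IsLocalRing.maximalIdeal O →
  ∀ (χ : CuspForm.heckeAlgebra (q * M') 2 (↑S : Set ℕ) →+* O) (ρ : GaloisRepAdic O),
    (∀ (ℓ : ℕ) (hℓ : ℓ.Prime) (hℓN : ¬ ℓ ∣ q * M') (hℓS : ℓ ∉ (↑S : Set ℕ)),
      ∀ B : ValuationSubring (AlgebraicClosure ℚ), B.LiesOverPrime ℓ →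
        ∀ σ : GQ, B.IsFrobeniusAt σ ℓ →
          LinearMap.charpoly (ρ.ρ σ) =
            X ^ 2 - C (χ (CuspForm.heckeAlgebra.T hℓ hℓN hℓS)) * X + C ((ℓ : O))) →
    ρ.residual.IsAbsolutelyIrreducible →
    ρ.IsUnramifiedAt q →
    ∀ a : ℕ → ℤ, NonEisAway p a →
      (∀ (ℓ : ℕ) (hℓ : ℓ.Prime) (hℓN : ¬ ℓ ∣ q * M') (hℓS : ℓ ∉ (↑S : Set ℕ)),
        χ (CuspForm.heckeAlgebra.T hℓ hℓN hℓS) - ((a ℓ : ℤ) : O) ∈ IsLocalRing.maximalIdeal O) →
      Lowered M' p S a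

theorem iaOldGood_of_all (h : IAOldStatement) : IAOldGoodStatement :=
  fun p q M' _ _ _ hp hp5 hq hq2 hqp hqM _ S hpS hNS O _ _ _ _ _ _ hpO χ ρ hchar habs hunr a
      hNE hcong =>
    h p q M' hp hp5 hq hq2 hqp hqM S hpS hNS O hpO χ ρ hchar habs hunr a hNE hcong

/-- **IA-OLD at good levels from the good-level leaves of WALL-q** (torsion orders `p ^ n`). -/
theorem iaOldGood_of_good (h2 : Q2GoodStatement) (h3 : Q3PowStatement)
    (hE : Fermat.Agent.Ribet.H765.EisSlopeQStructGoodStatement) : IAOldGoodStatement := by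
  intro p q M' _ _ _ hp hp5 hq hq2 hqp hqM hgood S hpS hNS O _ _ _ _ _ _ hpO χ ρ hchar habs hunr
    a hNE hcong
  have hh : ∀ n : ℕ, 0 < n → WallQHyp p n q M' := fun n hn =>
    ⟨hp, hp5, hn, hq, hq2, hqp, hqM, hgood⟩
  exact iaOld_of_inst hp hq hqp
    (fun A hA n hn => h2 p n q M' (hh n hn) A hA)
    (fun A hA n hn => h3 p q M' n hp hp5 hn hq hq2 hqp hqM A hA)
    (fun A hA n hn x hx hfix => hE p n q M' (hh n hn) A hA x hx hfix)
    hpS hNS hpO χ ρ hchar habs hunr a hNE hcong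

end Fermat.Agent.Ribet.H580.IAOld

end
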