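import Fermat.Agent.Ribet.H580.IAOldGlue

/-!
# IA-OLD: the core at INSTANCE level (helper580)

`iaOld_core_inst` = `iaOld_core` (`IAOldGlue.lean`) with the three POW-leaves required only at the
given instance `(p, q, M', A)` (for all torsion orders `p ^ n`).  This is the form to use with the
GOOD-LEVEL leaves of WALL-q (`H158.WallQ.Q2GoodStatement`, `H765.EisSlopeQStructGoodStatement`),
see `IAOldGood.lean`.  Same proof as `iaOld_core`.
-/

set_option autoImplicit false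
set_option synthInstance.maxHeartbeats 400000
set_option maxHeartbeats 1000000

noncomputable section

namespace Fermat.Agent.Ribet.H580.IAOld

open AlgebraicCurve ModularCurve Polynomial
open Fermat.Agent.Ribet.Spec Fermat.Agent.Ribet.H944.Wall Fermat.Agent.Ribet.H884
open Fermat.Agent.Ribet.H158.WallQ Fermat.Agent.Ribet.H801
open Fermat.Agent.S30.H330

section CoreInst

variable {p q M' : ℕ} [NeZero M'] [NeZero q] [NeZero (q * M')] {S : Finset ℕ}
variable {O : Type} [CommRing O] [IsDomain O] [IsDiscreteValuationRing O]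
  [IsAdicComplete (IsLocalRing.maximalIdeal O) O] [CharZero O]

/-- **IA-OLD, core, INSTANCE level**: for given `(p, q, M', A)` and `(χ, ρ)`, from the three
POW-leaves AT THIS INSTANCE (all torsion orders `p ^ n`) and the standard inputs. -/
theorem iaOld_core_inst (hp : p.Prime) (hq : q.Prime) (hqp : q ≠ p)
    (hcheb : Fermat.Agent.S30.H990.ChebWeak)
    {A : ValuationSubring (AlgebraicClosure ℚ)} (hA : A.LiesOverPrime q) {φ : GQ}
    (hφ : A.IsFrobeniusAt φ q)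
    (h2 : ∀ n : ℕ, 0 < n → Q2For (p ^ n) q M' A (splitPartQ (p ^ n) q M' A))
    (h3 : ∀ n : ℕ, 0 < n →
      Q3PowFor p n q M' (finPartQ (p ^ n) q M' A) (splitPartQ (p ^ n) q M' A))
    (hE : ∀ n : ℕ, 0 < n → ∀ x : JZero (q * M'), IsNewTorsQ (p ^ n) q M' x →
      (∀ σ ∈ A.inertiaSubgroupIn ℚ, σ • x = x) →
      IsEisModQ (p ^ n) q M' A (q * M' * p).primeFactors x)
    (hT : TorsionRelations (q * M') p) (hSm : SmoothStatement (q * M'))
    (hGH : GaloisHeckeStatement (q * M')) (hF : {x : JZero (q * M') | p • x = 0}.Finite)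
    (hpS : p ∈ S) (hNS : ∀ r : ℕ, r.Prime → r ∣ q * M' → r ∈ S)
    (hpO : (p : O) ∈ IsLocalRing.maximalIdeal O)
    (χ : CuspForm.heckeAlgebra (q * M') 2 (↑S : Set ℕ) →+* O) (ρ : GaloisRepAdic O)
    (hchar : ∀ (ℓ : ℕ) (hℓ : ℓ.Prime) (hℓN : ¬ ℓ ∣ q * M') (hℓS : ℓ ∉ (↑S : Set ℕ)),
      ∀ B : ValuationSubring (AlgebraicClosure ℚ), B.LiesOverPrime ℓ →
        ∀ σ : GQ, B.IsFrobeniusAt σ ℓ →
          LinearMap.charpoly (ρ.ρ σ) =
            X ^ 2 - C (χ (CuspForm.heckeAlgebra.T hℓ hℓN hℓS)) * X + C ((ℓ : O)))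
    (habs : ρ.residual.IsAbsolutelyIrreducible)
    (hunr : ρ.IsUnramifiedAt q)
    (f₀ : FractionRing O →+ JZero (q * M'))
    (hf0 : ∀ r : O, f₀ (algebraMap O (FractionRing O) r) = 0) (hfne : f₀ ≠ 0)
    (hfe : ∀ ℓ : Nat.Primes, (ℓ : ℕ) ∉ S → ∀ x,
      heckeOperatorBar (q * M') ℓ (f₀ x) =
        f₀ (algebraMap O (FractionRing O) (eigenvalue χ ℓ) * x))
    (a : ℕ → ℤ) (hNE : NonEisAway p a)
    (hcong : ∀ (ℓ : ℕ) (hℓ : ℓ.Prime) (hℓN : ¬ ℓ ∣ q * M') (hℓS : ℓ ∉ (↑S : Set ℕ)),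
      χ (CuspForm.heckeAlgebra.T hℓ hℓN hℓS) - ((a ℓ : ℤ) : O) ∈ IsLocalRing.maximalIdeal O) :
    Lowered M' p S a := by
  classical
  have : Fact p.Prime := ⟨hp⟩
  obtain ⟨ϖ, hϖ⟩ := IsDiscreteValuationRing.exists_irreducible O
  -- the eigenmodule
  have : NoZeroSMulDivisors O (eigenSub (h580_heckeFam (q * M') S) (h580_eigFam χ)) :=
    h580_noZeroSMulDivisors_eigenSub
  have : IsHausdorff (IsLocalRing.maximalIdeal O)
      (eigenSub (h580_heckeFam (q * M') S) (h580_eigFam χ)) := isHausdorff_eigenSub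
  have hfm : SrcHom.of f₀ ∈ eigenSub (h580_heckeFam (q * M') S) (h580_eigFam χ) :=
    ⟨hf0, fun i x => hfe i.1 i.2 x⟩
  have : Nontrivial (eigenSub (h580_heckeFam (q * M') S) (h580_eigFam χ)) := by
    refine ⟨⟨⟨SrcHom.of f₀, hfm⟩, 0, ?_⟩⟩
    intro h
    apply hfne
    have := congrArg (fun w : eigenSub (h580_heckeFam (q * M') S) (h580_eigFam χ) =>
      (w : SrcHom O (JZero (q * M')))) h
    exact this
  -- congruences of eigenvalues
  have hc : ∀ ℓ : Nat.Primes, (ℓ : ℕ) ∉ S →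
      eigenvalue χ (ℓ : ℕ) - ((a ℓ : ℤ) : O) ∈ IsLocalRing.maximalIdeal O := by
    intro ℓ hℓ
    obtain ⟨hℓN, hℓS', he⟩ := h580_eigenvalue_eq hNS χ ℓ ℓ.2 hℓ
    rw [he]
    exact hcong ℓ ℓ.2 hℓN hℓS'
  -- REL
  have hπc := h580_galRep_cont hpO hSm hGH hF χ
  obtain ⟨hrel, hdetq⟩ := h580_rel_of_cheb hcheb hpO S hpS (h580_pi hGH χ) hπc (h580_rhoMat ρ)
    (h580_rhoMat_cont ρ) (fun ℓ => eigenvalue χ ℓ)
    (fun ℓ hℓ hℓS B hB τ hτ => h580_galRep_frob hp hpS hNS hpO hT hGH χ ℓ hℓ hℓS B hB τ hτ)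
    (fun ℓ hℓ hℓS B hB τ hτ => by
      obtain ⟨hℓN, hℓS', he⟩ := h580_eigenvalue_eq hNS χ ℓ hℓ hℓS
      rw [he]
      exact h580_rhoMat_of_charpoly ρ τ _ _ (hchar ℓ hℓ hℓN hℓS' B hB τ hτ))
  have hspan := h580_rhoMat_span ρ habs
  -- inertia at `A` acts trivially on all values
  have hI : ∀ σ ∈ A.inertiaSubgroupIn ℚ,
      ∀ (g : eigenSub (h580_heckeFam (q * M') S) (h580_eigFam χ)) (z : FractionRing O),
        σ • g.1.hom z = g.1.hom z := by
    intro σ hσ g z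
    have h1 : h580_pi hGH χ σ = 1 :=
      h580_trivial_of_trivial two_ne_zero (h580_rhoMat ρ) hspan (h580_pi hGH χ) hrel σ
        (h580_rhoMat_one_of ρ σ (hunr A hA σ hσ))
    rw [← h580_pi_hom hGH χ σ g z, h1]
    rfl
  have hdeg := isDegPair_alphaL_betaL q M' hq
  -- (W0) some value is not new
  by_cases hW : ∃ (g : eigenSub (h580_heckeFam (q * M') S) (h580_eigFam χ))
      (z : FractionRing O), alphaL q M' (g.1.hom z) ≠ 0 ∨ betaL q M' (g.1.hom z) ≠ 0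
  · refine ⟨S ∪ {q}, Finset.subset_union_left, Or.inl ?_⟩
    have hc' : ∀ ℓ : Nat.Primes, (ℓ : ℕ) ∉ S ∪ {q} →
        eigenvalue χ (ℓ : ℕ) - ((a ℓ : ℤ) : O) ∈ IsLocalRing.maximalIdeal O := fun ℓ hℓ =>
      hc ℓ (fun h => hℓ (Finset.mem_union_left _ h))
    obtain ⟨g, z, hz | hz⟩ := hW
    · refine h580_occurs_of_hom hpO (S ∪ {q}) a (fun ℓ => eigenvalue χ ℓ) hc'
        ((alphaL q M').comp g.1.hom) (fun r => ?_) (fun ℓ hℓ x => ?_) z hz
      · rw [AddMonoidHom.comp_apply, g.2.1, map_zero]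
      · rw [Finset.mem_union, not_or] at hℓ
        rw [AddMonoidHom.comp_apply, AddMonoidHom.comp_apply, ← hdeg.hecke_left ℓ hℓ.2,
          h580_hecke_val χ g ℓ hℓ.1]
    · refine h580_occurs_of_hom hpO (S ∪ {q}) a (fun ℓ => eigenvalue χ ℓ) hc'
        ((betaL q M').comp g.1.hom) (fun r => ?_) (fun ℓ hℓ x => ?_) z hz
      · rw [AddMonoidHom.comp_apply, g.2.1, map_zero]
      · rw [Finset.mem_union, not_or] at hℓ
        rw [AddMonoidHom.comp_apply, AddMonoidHom.comp_apply, ← hdeg.hecke_right ℓ hℓ.2,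
          h580_hecke_val χ g ℓ hℓ.1]
  -- all values are new
  have hnew : ∀ (g : eigenSub (h580_heckeFam (q * M') S) (h580_eigFam χ)) (n : ℕ)
      (z : FractionRing O), h580_InLayer ϖ n z → IsNewTorsQ (p ^ n) q M' (g.1.hom z) := by
    intro g n z hz
    refine ⟨h580_pow_smul_of_inLayer hpO hϖ g.2 hz, ?_, ?_⟩
    · by_contra hx
      exact hW ⟨g, z, Or.inl hx⟩
    · by_contra hx
      exact hW ⟨g, z, Or.inr hx⟩
  -- (NE) a prime with `χ(T_ℓ) - (ℓ + 1)` a unit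
  obtain ⟨ℓ₀, hℓ₀, hℓ₀S, hndvd⟩ := hNE (S ∪ (q * M' * p).primeFactors)
  have hℓ₀1 : ℓ₀ ∉ S := fun h => hℓ₀S (Finset.mem_union_left _ h)
  have hℓ₀2 : ℓ₀ ∉ (q * M' * p).primeFactors := fun h => hℓ₀S (Finset.mem_union_right _ h)
  have hu : IsUnit (eigenvalue χ ℓ₀ - ((ℓ₀ + 1 : ℕ) : O)) := by
    by_contra hnu
    have hmem : eigenvalue χ ℓ₀ - ((ℓ₀ + 1 : ℕ) : O) ∈ IsLocalRing.maximalIdeal O :=
      (IsLocalRing.mem_maximalIdeal _).mpr hnu
    have h1 := hc ⟨ℓ₀, hℓ₀⟩ hℓ₀1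
    have h2' : ((a ℓ₀ - ((ℓ₀ : ℤ) + 1) : ℤ) : O) ∈ IsLocalRing.maximalIdeal O := by
      have e : ((a ℓ₀ - ((ℓ₀ : ℤ) + 1) : ℤ) : O) =
          (eigenvalue χ ℓ₀ - ((ℓ₀ + 1 : ℕ) : O)) - (eigenvalue χ ℓ₀ - ((a ℓ₀ : ℤ) : O)) := by
        push_cast
        ring
      rw [e]
      exact Ideal.sub_mem _ hmem h1
    exact h580_intCast_not_mem hp hpO _ hndvd h2'
  obtain ⟨w, hw⟩ := hu.exists_right_inv
  -- (EIS) all values lie in the finite part
  have hFin : ∀ (g : eigenSub (h580_heckeFam (q * M') S) (h580_eigFam χ)) (n : ℕ), 0 < n →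
      ∀ z : FractionRing O, h580_InLayer ϖ n z → g.1.hom z ∈ finPartQ (p ^ n) q M' A := by
    intro g n hn z hz
    have hz' := h580_inLayer_mul hz w
    have hEis := hE n hn
      (g.1.hom (algebraMap O (FractionRing O) w * z)) (hnew g n _ hz')
      (fun σ hσ => hI σ hσ g _) ⟨ℓ₀, hℓ₀⟩ hℓ₀2
    have e : heckeOperatorBar (q * M') ⟨ℓ₀, hℓ₀⟩
          (g.1.hom (algebraMap O (FractionRing O) w * z)) -
        (ℓ₀ + 1) • g.1.hom (algebraMap O (FractionRing O) w * z) = g.1.hom z := by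
      rw [h580_hecke_val χ g ⟨ℓ₀, hℓ₀⟩ hℓ₀1, h580_hom_sub_nsmul, ← mul_assoc, ← map_mul, hw,
        map_one, one_mul]
    rw [← e]
    exact hEis
  by_cases hB : ∀ (g : eigenSub (h580_heckeFam (q * M') S) (h580_eigFam χ)) (n : ℕ), 0 < n →
      ∀ z : FractionRing O, h580_InLayer ϖ n z → g.1.hom z ∈ splitPartQ (p ^ n) q M' A
  · -- Case B: all values in the split part: `Frob² = q²`, contradiction
    exfalso
    have hsq : h580_pi hGH χ φ * h580_pi hGH χ φ =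
        ((q : O) ^ 2) • (1 : Module.End O (eigenSub (h580_heckeFam (q * M') S) (h580_eigFam χ))) := by
      apply LinearMap.ext
      intro g
      apply Subtype.ext
      apply SrcHom.ext
      intro z
      obtain ⟨n, hn, hz⟩ := h580_exists_inLayer hϖ z
      obtain ⟨u, huG, huu, hφu⟩ := h2 n hn
      have hx𝒮 := hB g n hn z hz
      have hxnew := hnew g n z hz
      have h1 : φ • g.1.hom z = q • u (g.1.hom z) := hφu φ hφ _ hx𝒮 hxnew
      have h4 : φ • φ • g.1.hom z = (q ^ 2) • g.1.hom z := by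
        calc φ • φ • g.1.hom z = φ • (q • u (g.1.hom z)) := by rw [h1]
          _ = q • (φ • u (g.1.hom z)) :=
            (DistribSMul.toAddMonoidHom (JZero (q * M')) φ).map_nsmul _ _
          _ = q • u (φ • g.1.hom z) := by rw [huG]
          _ = q • u (q • u (g.1.hom z)) := by rw [h1]
          _ = q • (q • u (u (g.1.hom z))) := by rw [map_nsmul]
          _ = q • (q • g.1.hom z) := by rw [huu _ hx𝒮 hxnew]
          _ = (q ^ 2) • g.1.hom z := by rw [smul_smul, pow_two]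
      show ((h580_pi hGH χ φ (h580_pi hGH χ φ g) :
          eigenSub (h580_heckeFam (q * M') S) (h580_eigFam χ)) : SrcHom O (JZero (q * M'))).hom z =
        (g : SrcHom O (JZero (q * M'))).hom (algebraMap O (FractionRing O) ((q : O) ^ 2) * z)
      rw [h580_pi_hom, h580_pi_hom, h4, h580_nsmul_hom]
      push_cast
      rfl
    exact h580_no_scalar_sq (h580_rhoMat ρ) hspan (h580_pi hGH χ) hrel q hq.two_le φ hsq
      (hdetq q hq hqp A hA φ hφ)
  · -- Case A: some value is not in the split part: first layer + (Q3-pow)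
    push Not at hB
    obtain ⟨g, n, hn, z₀, hz₀, hz₀𝒮⟩ := hB
    obtain ⟨z, hz, hz𝒮, hzc⟩ := h580_first_layer hϖ g.1.hom (splitPartQ (p ^ n) q M' A)
      (fun r => by rw [g.2.1]; exact AddSubgroup.zero_mem _) n z₀ hz₀ hz₀𝒮
    refine h3 n hn S a (g.1.hom z) (hFin g n hn z hz) hz𝒮
      (hnew g n z hz) (fun ℓ hℓ => ?_) ?_
    · rw [h580_hecke_val χ g ℓ hℓ, h580_hom_sub_zsmul]
      exact hzc _ (hc ℓ hℓ)
    · rw [h580_nsmul_hom]
      exact hzc _ hpO

end CoreInst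

end Fermat.Agent.Ribet.H580.IAOld

end
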