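import Fermat.Agent.Ribet.H580.IAOldAlg

set_option autoImplicit false

namespace Fermat.Agent.Ribet.H580.IAOld

open Matrix

section matrix

variable {O : Type*} [CommRing O]

/-- Two matrices whose commutator squares to `1`. -/
theorem h580_commutator_sq :
    ∃ y z : Matrix (Fin 2) (Fin 2) O, (y * z - z * y) * (y * z - z * y) = 1 := by
  refine ⟨!![0, 1; 0, 0], !![0, 0; 1, 0], ?_⟩
  ext i j
  fin_cases i <;> fin_cases j <;> simp [Matrix.mul_apply, Fin.sum_univ_two]

/-- Cayley–Hamilton for `2 × 2` matrices. -/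
theorem h580_cayley (X : Matrix (Fin 2) (Fin 2) O) :
    X * X - X.trace • X + X.det • (1 : Matrix (Fin 2) (Fin 2) O) = 0 := by
  ext i j
  fin_cases i <;> fin_cases j <;>
    simp [Matrix.mul_apply, Fin.sum_univ_two, Matrix.trace_fin_two, Matrix.det_fin_two] <;> ring

/-- `x_ab • 1 = ∑ᵢ E_ia X E_bi`. -/
theorem h580_entry_smul_one (X : Matrix (Fin 2) (Fin 2) O) (a b : Fin 2) :
    X a b • (1 : Matrix (Fin 2) (Fin 2) O) =
      Matrix.single 0 a 1 * X * Matrix.single b 0 1 + Matrix.single 1 a 1 * X * Matrix.single b 1 1 := by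
  rw [Matrix.single_mul_mul_single, Matrix.single_mul_mul_single, one_mul, mul_one]
  ext i j
  fin_cases i <;> fin_cases j <;> simp [Matrix.single]

variable {G : Type*} [Group G]

/-- The group algebra surjects onto `M₂(O)` when the image of `ρ` spans. -/
theorem h580_lift_surjective (ρ : G →* Matrix (Fin 2) (Fin 2) O)
    (hspan : Submodule.span O (Set.range ρ) = ⊤) :
    Function.Surjective (MonoidAlgebra.lift O (Matrix (Fin 2) (Fin 2) O) G ρ) := by
  intro X
  have hX : X ∈ Submodule.span O (Set.range ρ) := by rw [hspan]; trivial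
  have hle : Submodule.span O (Set.range ρ) ≤
      LinearMap.range (MonoidAlgebra.lift O (Matrix (Fin 2) (Fin 2) O) G ρ).toLinearMap := by
    rw [Submodule.span_le]
    rintro _ ⟨g, rfl⟩
    exact ⟨MonoidAlgebra.of O G g, by simp⟩
  obtain ⟨u, hu⟩ := hle hX
  exact ⟨u, hu⟩

variable [IsDomain O] {M : Type*} [AddCommGroup M] [Module O M] [NoZeroSMulDivisors O M]
  [Nontrivial M]

/-- **BLR, matrix form, with injectivity.** -/
theorem h580_blr_matrix (h2 : (2 : O) ≠ 0) (ρ : G →* Matrix (Fin 2) (Fin 2) O)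
    (hspan : Submodule.span O (Set.range ρ) = ⊤) (π : G →* Module.End O M)
    (hπ : ∀ g, π g * π g - (ρ g).trace • π g + (ρ g).det • (1 : Module.End O M) = 0) :
    ∃ Ψ : Matrix (Fin 2) (Fin 2) O →ₐ[O] Module.End O M,
      Function.Injective Ψ ∧ ∀ g, Ψ (ρ g) = π g := by
  have h2B : ∀ b : Module.End O M, b + b = 0 → b = 0 := by
    intro b hb
    ext m
    have h1 : (2 : O) • b m = 0 := by
      have := congrArg (fun f : Module.End O M => f m) hb
      simpa [two_smul] using this
    rcases smul_eq_zero.mp h1 with h | h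
    · exact absurd h h2
    · simpa using h
  let d : G →* O := (Matrix.detMonoidHom).comp ρ
  obtain ⟨Ψ, hΨ⟩ := h580_blr_algHom h2B ρ π d (Matrix.traceLinearMap (Fin 2) O O)
    (fun g => by simpa [d] using hπ g) (h580_lift_surjective ρ hspan) h580_commutator_sq
  refine ⟨Ψ, ?_, hΨ⟩
  rw [injective_iff_map_eq_zero]
  intro X hX
  have hent : ∀ a b, X a b = 0 := by
    intro a b
    have h1 : Ψ (X a b • (1 : Matrix (Fin 2) (Fin 2) O)) = 0 := by
      rw [h580_entry_smul_one, map_add, map_mul, map_mul, map_mul, map_mul, hX]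
      simp
    rw [map_smul, map_one] at h1
    obtain ⟨m, hm⟩ := exists_ne (0 : M)
    have h3 : X a b • m = 0 := by
      have := congrArg (fun f : Module.End O M => f m) h1
      simpa using this
    rcases smul_eq_zero.mp h3 with h | h
    · exact h
    · exact absurd h hm
  ext a b
  exact hent a b

/-- `ρ σ = 1 ⟹ π σ = 1`. -/
theorem h580_trivial_of_trivial (h2 : (2 : O) ≠ 0) (ρ : G →* Matrix (Fin 2) (Fin 2) O)
    (hspan : Submodule.span O (Set.range ρ) = ⊤) (π : G →* Module.End O M)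
    (hπ : ∀ g, π g * π g - (ρ g).trace • π g + (ρ g).det • (1 : Module.End O M) = 0)
    (σ : G) (hσ : ρ σ = 1) : π σ = 1 := by
  obtain ⟨Ψ, -, hΨ⟩ := h580_blr_matrix h2 ρ hspan π hπ
  rw [← hΨ, hσ, map_one]

/-- **Characteristic-zero Mazur principle, algebraic core**: `π φ ^ 2 = q ^ 2` and
`det ρ φ = q` are incompatible for `q ≥ 2`. -/
theorem h580_no_scalar_sq [CharZero O] (ρ : G →* Matrix (Fin 2) (Fin 2) O)
    (hspan : Submodule.span O (Set.range ρ) = ⊤) (π : G →* Module.End O M)
    (hπ : ∀ g, π g * π g - (ρ g).trace • π g + (ρ g).det • (1 : Module.End O M) = 0)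
    (q : ℕ) (hq : 2 ≤ q) (φ : G) (hφ : π φ * π φ = ((q : O) ^ 2) • (1 : Module.End O M))
    (hdet : (ρ φ).det = (q : O)) : False := by
  have h2 : (2 : O) ≠ 0 := two_ne_zero
  obtain ⟨Ψ, hinj, hΨ⟩ := h580_blr_matrix h2 ρ hspan π hπ
  set X : Matrix (Fin 2) (Fin 2) O := ρ φ with hX
  have hsq : X * X = ((q : O) ^ 2) • (1 : Matrix (Fin 2) (Fin 2) O) := by
    apply hinj
    rw [map_mul, hΨ, hφ, map_smul, map_one]
  have hch := h580_cayley X
  rw [hsq, hdet] at hch
  -- `t • X = (q ^ 2 + q) • 1`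
  set t : O := X.trace with ht
  have h1 : t • X = ((q : O) ^ 2 + q) • (1 : Matrix (Fin 2) (Fin 2) O) := by
    rw [add_smul]
    have := hch
    rw [sub_add_eq_add_sub, sub_eq_zero] at this
    exact this.symm
  have htr : t * t = 2 * ((q : O) ^ 2 + q) := by
    have := congrArg Matrix.trace h1
    rw [Matrix.trace_smul, Matrix.trace_smul, Matrix.trace_one, smul_eq_mul, smul_eq_mul] at this
    rw [← ht] at this
    rw [this]
    simp
    ring
  have hdt : t ^ 2 * (q : O) = ((q : O) ^ 2 + q) ^ 2 := by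
    have := congrArg Matrix.det h1
    rw [Matrix.det_smul, Matrix.det_smul, Matrix.det_one, hdet, Fintype.card_fin, mul_one] at this
    exact this
  have hq0 : (q : O) ≠ 0 := by
    have : q ≠ 0 := by omega
    exact_mod_cast this
  have hq1 : (q : O) + 1 ≠ 0 := by
    have : q + 1 ≠ 0 := by omega
    exact_mod_cast this
  have hq2 : (q : O) ≠ 1 := by
    have : q ≠ 1 := by omega
    exact_mod_cast this
  have key : (q : O) ^ 2 * ((q : O) + 1) * (1 - (q : O)) = 0 := by
    have e : t ^ 2 = 2 * ((q : O) ^ 2 + q) := by rw [pow_two, htr]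
    rw [e] at hdt
    linear_combination hdt
  rcases mul_eq_zero.mp key with h | h
  · rcases mul_eq_zero.mp h with h | h
    · exact hq0 (pow_eq_zero_iff (two_ne_zero) |>.mp h)
    · exact hq1 h
  · exact hq2 (sub_eq_zero.mp h).symm

end matrix

end Fermat.Agent.Ribet.H580.IAOld
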