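import Fermat.Agent.Ribet.H580.IAOldMat
import Fermat.Agent.S30.H990.Limit
import Fermat.Agent.S30.H990.Cyclo
import Fermat.Agent.S31.H202.TraceRigid

/-!
# IA-OLD, step REL (helper580): every element of `G_ℚ` satisfies on the eigenmodule the
characteristic polynomial of `ρ`

`O` a complete DVR, `π : G_ℚ → End_O(M)` adically continuous on a separated module `M`,
`ρm : G_ℚ → M₂(O)` adically continuous, and for the Frobenius elements `τ` at the primes `ℓ ∉ S`
* `π(τ)² - a_ℓ π(τ) + ℓ = 0`,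
* `tr ρm(τ) = a_ℓ`, `det ρm(τ) = ℓ`.
Then (weak Chebotarev + Lucas sequences + separatedness)
* `h580_rel_of_cheb` : `π(g)² - tr ρm(g) π(g) + det ρm(g) = 0` for EVERY `g`,
* `h580_det_eq_cyclo` : `det ρm = ` the cyclotomic character; in particular `det ρm(φ) = q` for every
  Frobenius at every prime `q ≠ p` (also for `q ∈ S`).
`h580_rhoMat*` : the matrix form of a `GaloisRepAdic`.
-/

set_option autoImplicit false

noncomputable section

namespace Fermat.Agent.Ribet.H580.IAOld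

open Polynomial Fermat.Agent.S30.H990 Fermat.Agent.S55.H414

/-! ## Congruences for `2 × 2` matrices -/

section MatCong

variable {O : Type*} [CommRing O]

/-- `det X ≡ 1` when `X ≡ 1`. -/
theorem h580_det_sub_one_mem (I : Ideal O) (X : Matrix (Fin 2) (Fin 2) O)
    (hX : ∀ i j, (X - 1) i j ∈ I) : X.det - 1 ∈ I := by
  have h00 := hX 0 0
  have h01 := hX 0 1
  have h10 := hX 1 0
  have h11 := hX 1 1
  simp only [Matrix.sub_apply, Matrix.one_apply_eq, Matrix.one_apply_ne, ne_eq,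
    Fin.zero_eq_one_iff, Fin.one_eq_zero_iff, OfNat.ofNat_ne_one, not_false_eq_true,
    sub_zero] at h00 h01 h10 h11
  have e : X.det - 1 = (X 0 0 - 1) + (X 1 1 - 1) + (X 0 0 - 1) * (X 1 1 - 1) - X 0 1 * X 1 0 := by
    rw [Matrix.det_fin_two]
    ring
  rw [e]
  exact I.sub_mem (I.add_mem (I.add_mem h00 h11) (I.mul_mem_left _ h11)) (I.mul_mem_left _ h10)

/-- `tr (B X) ≡ tr B` when `X ≡ 1`. -/
theorem h580_trace_mul_sub_mem (I : Ideal O) (B X : Matrix (Fin 2) (Fin 2) O)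
    (hX : ∀ i j, (X - 1) i j ∈ I) : (B * X).trace - B.trace ∈ I := by
  have e : (B * X).trace - B.trace = (B * (X - 1)).trace := by
    rw [mul_sub, mul_one, Matrix.trace_sub]
  rw [e, Matrix.trace_fin_two]
  simp only [Matrix.mul_apply, Fin.sum_univ_two]
  exact I.add_mem (I.add_mem (I.mul_mem_left _ (hX 0 0)) (I.mul_mem_left _ (hX 1 0)))
    (I.add_mem (I.mul_mem_left _ (hX 0 1)) (I.mul_mem_left _ (hX 1 1)))

end MatCong


/-! ## The relation modulo `𝔪 ^ n` -/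

section Rel

variable {O : Type} [CommRing O] [IsDomain O] [IsDiscreteValuationRing O] [CharZero O]
variable {M : Type} [AddCommGroup M] [Module O M]

omit [IsDiscreteValuationRing O] [CharZero O] in
/-- The trace of a `2 × 2` matrix `B` with `det B ≠ 0` satisfying `B² - t B + det B = 0` is `t`. -/
theorem h580_trace_eq_of_rel (B : Matrix (Fin 2) (Fin 2) O) (t : O) (hdet : B.det ≠ 0)
    (h : B * B - t • B + B.det • (1 : Matrix (Fin 2) (Fin 2) O) = 0) : B.trace = t := by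
  have hc := h580_cayley B
  have hz : (t - B.trace) • B = 0 := by
    have : (t - B.trace) • B = (B * B - B.trace • B + B.det • (1 : Matrix (Fin 2) (Fin 2) O)) -
        (B * B - t • B + B.det • (1 : Matrix (Fin 2) (Fin 2) O)) := by
      rw [sub_smul]; abel
    rw [this, hc, h, sub_zero]
  by_contra hne
  have hne' : t - B.trace ≠ 0 := fun h0 => hne (sub_eq_zero.mp h0).symm
  have hB : B = 0 := by
    ext i j
    have := congrFun (congrFun hz i) j
    simp only [Matrix.smul_apply, smul_eq_mul, Matrix.zero_apply] at this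
    rcases mul_eq_zero.mp this with h1 | h1
    · exact absurd h1 hne'
    · simpa using h1
  apply hdet
  rw [hB, Matrix.det_fin_two]
  simp

/-- **The relation modulo `𝔪 ^ n`** for every `g`, and `det ρm ≡ d` modulo `𝔪 ^ n`. -/
theorem h580_rel_mod (hcheb : ChebWeak) {p : ℕ} [Fact p.Prime] (S : Finset ℕ) (hpS : p ∈ S)
    (π : GQ →* Module.End O M) (hπc : GaloisActionIsAdicContinuous O π)
    (ρm : GQ →* Matrix (Fin 2) (Fin 2) O)
    (hρc : ∀ n : ℕ, ∃ L : IntermediateField ℚ (AlgebraicClosure ℚ), FiniteDimensional ℚ L ∧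
      ∀ σ : GQ, (∀ x ∈ L, σ x = x) →
        ∀ i j, (ρm σ - 1) i j ∈ IsLocalRing.maximalIdeal O ^ n)
    (a : ℕ → O)
    (hπ : ∀ ℓ : ℕ, ℓ.Prime → ℓ ∉ S → ∀ A : ValuationSubring (AlgebraicClosure ℚ),
      A.LiesOverPrime ℓ → ∀ τ : GQ, A.IsFrobeniusAt τ ℓ →
        π τ * π τ - a ℓ • π τ + (ℓ : O) • (1 : Module.End O M) = 0)
    (hρ : ∀ ℓ : ℕ, ℓ.Prime → ℓ ∉ S → ∀ A : ValuationSubring (AlgebraicClosure ℚ),
      A.LiesOverPrime ℓ → ∀ τ : GQ, A.IsFrobeniusAt τ ℓ →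
        (ρm τ).trace = a ℓ ∧ (ρm τ).det = (ℓ : O))
    (d : GQ →* Oˣ)
    (hdfrob : ∀ ℓ : ℕ, ℓ.Prime → ℓ ≠ p → ∀ A : ValuationSubring (AlgebraicClosure ℚ),
      A.LiesOverPrime ℓ → ∀ σ : GQ, A.IsFrobeniusAt σ ℓ → ((d σ : Oˣ) : O) = (ℓ : O))
    (hdcont : ∀ (n : ℕ) (σ : GQ), (∀ x ∈ cycloLevel (p ^ n), σ x = x) →
      ((d σ : Oˣ) : O) - 1 ∈ IsLocalRing.maximalIdeal O ^ n)
    (g : GQ) (n : ℕ) :
    (∀ v : M, π g (π g v) - (ρm g).trace • π g v + (ρm g).det • v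
      ∈ (IsLocalRing.maximalIdeal O ^ n) • (⊤ : Submodule O M)) ∧
    (ρm g).det - ((d g : Oˣ) : O) ∈ IsLocalRing.maximalIdeal O ^ n := by
  obtain ⟨L₁, hL₁fin, hL₁⟩ := hπc n
  obtain ⟨L₂, hL₂fin, hL₂⟩ := hρc n
  have : FiniteDimensional ℚ L₁ := hL₁fin
  have : FiniteDimensional ℚ L₂ := hL₂fin
  have hL12 : FiniteDimensional ℚ ↥(L₁ ⊔ L₂) := IntermediateField.finiteDimensional_sup L₁ L₂
  have hLfin : FiniteDimensional ℚ ↥((L₁ ⊔ L₂) ⊔ cycloLevel (p ^ n)) :=
    IntermediateField.finiteDimensional_sup (L₁ ⊔ L₂) (cycloLevel (p ^ n))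
  obtain ⟨ℓ, hℓ, hℓS, A, hA, τ, hτ, j, hj⟩ :=
    hcheb ((L₁ ⊔ L₂) ⊔ cycloLevel (p ^ n)) hLfin g S
  have hℓp : ℓ ≠ p := fun h => hℓS (h ▸ hpS)
  set σ : GQ := (τ ^ j)⁻¹ * g with hσ
  have hg : g = τ ^ j * σ := by rw [hσ, mul_inv_cancel_left]
  have hσfix : ∀ x ∈ (L₁ ⊔ L₂) ⊔ cycloLevel (p ^ n), σ x = x := by
    intro x hx
    have h1 : σ x = (τ ^ j)⁻¹ (g x) := rfl
    rw [h1, hj x hx]
    exact (τ ^ j).symm_apply_apply x
  have hle1 : L₁ ≤ (L₁ ⊔ L₂) ⊔ cycloLevel (p ^ n) := le_sup_of_le_left le_sup_left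
  have hle2 : L₂ ≤ (L₁ ⊔ L₂) ⊔ cycloLevel (p ^ n) := le_sup_of_le_left le_sup_right
  have hs : ∀ v : M, π σ v - v ∈ (IsLocalRing.maximalIdeal O ^ n) • (⊤ : Submodule O M) :=
    hL₁ σ (fun x hx => hσfix x (hle1 hx))
  have hsρ : ∀ i j, (ρm σ - 1) i j ∈ IsLocalRing.maximalIdeal O ^ n :=
    hL₂ σ (fun x hx => hσfix x (hle2 hx))
  have hu : ((d σ : Oˣ) : O) - 1 ∈ IsLocalRing.maximalIdeal O ^ n :=
    hdcont n σ (fun x hx => hσfix x (le_sup_right (a := L₁ ⊔ L₂) hx))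
  -- Lucas in the product algebra
  obtain ⟨htr, hdet⟩ := hρ ℓ hℓ hℓS A hA τ hτ
  have hrelπ := hπ ℓ hℓ hℓS A hA τ hτ
  have hrelρ : ρm τ * ρm τ - a ℓ • ρm τ + (ℓ : O) • (1 : Matrix (Fin 2) (Fin 2) O) = 0 := by
    have := h580_cayley (ρm τ)
    rwa [htr, hdet] at this
  obtain ⟨t, ht⟩ := lucas (A := Module.End O M × Matrix (Fin 2) (Fin 2) O) (π τ, ρm τ) (a ℓ)
    (ℓ : O) (by
      apply Prod.ext
      · simpa using hrelπ
      · simpa using hrelρ) j
  have ht1 : π τ ^ j * π τ ^ j - t • π τ ^ j + ((ℓ : O) ^ j) • (1 : Module.End O M) = 0 := by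
    simpa using congrArg Prod.fst ht
  have ht2 : ρm τ ^ j * ρm τ ^ j - t • ρm τ ^ j +
      ((ℓ : O) ^ j) • (1 : Matrix (Fin 2) (Fin 2) O) = 0 := by
    simpa using congrArg Prod.snd ht
  have hℓ0 : ((ℓ : O) ^ j) ≠ 0 := pow_ne_zero _ (Nat.cast_ne_zero.mpr hℓ.ne_zero)
  have hdetj : (ρm τ ^ j).det = (ℓ : O) ^ j := by rw [Matrix.det_pow, hdet]
  have htrj : (ρm τ ^ j).trace = t := by
    apply h580_trace_eq_of_rel _ _ (by rw [hdetj]; exact hℓ0)
    rw [hdetj]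
    exact ht2
  have hρg : ρm g = ρm τ ^ j * ρm σ := by rw [hg, map_mul, map_pow]
  have hπg : π g = π τ ^ j * π σ := by rw [hg, map_mul, map_pow]
  have hdetσ : (ρm σ).det - 1 ∈ IsLocalRing.maximalIdeal O ^ n :=
    h580_det_sub_one_mem _ _ hsρ
  have hdetg : (ρm g).det = (ℓ : O) ^ j * (ρm σ).det := by rw [hρg, Matrix.det_mul, hdetj]
  have htrg : (ρm g).trace - t ∈ IsLocalRing.maximalIdeal O ^ n := by
    rw [hρg, ← htrj]
    exact h580_trace_mul_sub_mem _ _ _ hsρ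
  refine ⟨fun v => ?_, ?_⟩
  · have key := rel_mod_of_mul (IsLocalRing.maximalIdeal O ^ n) (π τ ^ j) (π σ) t
      ((ℓ : O) ^ j) ((ρm σ).det) ht1 hs hdetσ v
    rw [← hπg, ← hdetg] at key
    have e : π g (π g v) - (ρm g).trace • π g v + (ρm g).det • v =
        (π g (π g v) - t • π g v + (ρm g).det • v) - ((ρm g).trace - t) • π g v := by
      rw [sub_smul]; abel
    rw [e]
    exact Submodule.sub_mem _ key (Submodule.smul_mem_smul htrg Submodule.mem_top)
  · have hdg : ((d g : Oˣ) : O) = (ℓ : O) ^ j * ((d σ : Oˣ) : O) := by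
      rw [hg, map_mul, map_pow, Units.val_mul, Units.val_pow_eq_pow_val,
        hdfrob ℓ hℓ hℓp A hA τ hτ]
    rw [hdetg, hdg]
    have e : (ℓ : O) ^ j * (ρm σ).det - (ℓ : O) ^ j * ((d σ : Oˣ) : O) =
        (ℓ : O) ^ j * (((ρm σ).det - 1) - (((d σ : Oˣ) : O) - 1)) := by ring
    rw [e]
    exact Ideal.mul_mem_left _ _ (Ideal.sub_mem _ hdetσ hu)

end Rel

/-! ## The exact relation -/

section Exact

variable {O : Type} [CommRing O] [IsDomain O] [IsDiscreteValuationRing O] [CharZero O]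
  [IsAdicComplete (IsLocalRing.maximalIdeal O) O]
variable {M : Type} [AddCommGroup M] [Module O M]

/-- **REL**: every `g` satisfies on `M` the characteristic polynomial of `ρm g`, and the determinant
of `ρm` at a Frobenius at `q ≠ p` is `q`. -/
theorem h580_rel_of_cheb (hcheb : ChebWeak) {p : ℕ} [Fact p.Prime]
    (hpO : (p : O) ∈ IsLocalRing.maximalIdeal O) (S : Finset ℕ) (hpS : p ∈ S)
    [IsHausdorff (IsLocalRing.maximalIdeal O) M]
    (π : GQ →* Module.End O M) (hπc : GaloisActionIsAdicContinuous O π)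
    (ρm : GQ →* Matrix (Fin 2) (Fin 2) O)
    (hρc : ∀ n : ℕ, ∃ L : IntermediateField ℚ (AlgebraicClosure ℚ), FiniteDimensional ℚ L ∧
      ∀ σ : GQ, (∀ x ∈ L, σ x = x) →
        ∀ i j, (ρm σ - 1) i j ∈ IsLocalRing.maximalIdeal O ^ n)
    (a : ℕ → O)
    (hπ : ∀ ℓ : ℕ, ℓ.Prime → ℓ ∉ S → ∀ A : ValuationSubring (AlgebraicClosure ℚ),
      A.LiesOverPrime ℓ → ∀ τ : GQ, A.IsFrobeniusAt τ ℓ →
        π τ * π τ - a ℓ • π τ + (ℓ : O) • (1 : Module.End O M) = 0)
    (hρ : ∀ ℓ : ℕ, ℓ.Prime → ℓ ∉ S → ∀ A : ValuationSubring (AlgebraicClosure ℚ),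
      A.LiesOverPrime ℓ → ∀ τ : GQ, A.IsFrobeniusAt τ ℓ →
        (ρm τ).trace = a ℓ ∧ (ρm τ).det = (ℓ : O)) :
    (∀ g : GQ, π g * π g - (ρm g).trace • π g + (ρm g).det • (1 : Module.End O M) = 0) ∧
    (∀ q : ℕ, q.Prime → q ≠ p → ∀ A : ValuationSubring (AlgebraicClosure ℚ),
      A.LiesOverPrime q → ∀ φ : GQ, A.IsFrobeniusAt φ q → (ρm φ).det = (q : O)) := by
  obtain ⟨d, hdfrob, -, -, hdcont⟩ := exists_cyclo p O hpO
  have key := h580_rel_mod hcheb S hpS π hπc ρm hρc a hπ hρ d hdfrob hdcont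
  refine ⟨fun g => ?_, fun q hq hqp A hA φ hφ => ?_⟩
  · ext v
    have hv : ∀ n : ℕ, π g (π g v) - (ρm g).trace • π g v + (ρm g).det • v ≡ 0
        [SMOD (IsLocalRing.maximalIdeal O ^ n • ⊤ : Submodule O M)] := by
      intro n
      rw [SModEq.zero]
      exact (key g n).1 v
    have := IsHausdorff.haus ‹IsHausdorff (IsLocalRing.maximalIdeal O) M› _ hv
    simpa using this
  · rw [← hdfrob q hq hqp A hA φ hφ]
    have hv : ∀ n : ℕ, (ρm φ).det - ((d φ : Oˣ) : O) ≡ 0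
        [SMOD (IsLocalRing.maximalIdeal O ^ n • ⊤ : Submodule O O)] := by
      intro n
      rw [SModEq.zero, smul_eq_mul, Ideal.mul_top]
      exact (key φ n).2
    have hH : IsHausdorff (IsLocalRing.maximalIdeal O) O := inferInstance
    exact sub_eq_zero.mp (IsHausdorff.haus hH _ hv)

end Exact

/-! ## The matrix form of a `GaloisRepAdic` -/

section RhoMat

variable {O : Type} [CommRing O] [IsLocalRing O]

/-- The matrices of `ρ` in a basis, as a monoid homomorphism. -/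
def h580_rhoMat (ρ : GaloisRepAdic O) : GQ →* Matrix (Fin 2) (Fin 2) O :=
  ((LinearMap.toMatrixAlgEquiv (Fermat.Agent.S31.H202.rhoBasis ρ) :
      Module.End O ρ.V →ₐ[O] Matrix (Fin 2) (Fin 2) O) :
    Module.End O ρ.V →* Matrix (Fin 2) (Fin 2) O).comp ρ.ρ

theorem h580_rhoMat_apply (ρ : GaloisRepAdic O) (g : GQ) :
    h580_rhoMat ρ g = LinearMap.toMatrix (Fermat.Agent.S31.H202.rhoBasis ρ)
      (Fermat.Agent.S31.H202.rhoBasis ρ) (ρ.ρ g) := rfl

theorem h580_rhoMat_trace (ρ : GaloisRepAdic O) (g : GQ) :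
    (h580_rhoMat ρ g).trace = LinearMap.trace O ρ.V (ρ.ρ g) := by
  rw [h580_rhoMat_apply, LinearMap.trace_eq_matrix_trace O (Fermat.Agent.S31.H202.rhoBasis ρ)]

theorem h580_rhoMat_det (ρ : GaloisRepAdic O) (g : GQ) :
    (h580_rhoMat ρ g).det = LinearMap.det (ρ.ρ g) := by
  rw [h580_rhoMat_apply, LinearMap.det_toMatrix]

theorem h580_rhoMat_one_of (ρ : GaloisRepAdic O) (g : GQ) (h : ρ.ρ g = 1) :
    h580_rhoMat ρ g = 1 := by
  rw [h580_rhoMat_apply, h]
  exact LinearMap.toMatrix_one _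

/-- Burnside: the matrices of a residually absolutely irreducible `ρ` span `M₂(O)`. -/
theorem h580_rhoMat_span (ρ : GaloisRepAdic O) (habs : ρ.residual.IsAbsolutelyIrreducible) :
    Submodule.span O (Set.range (h580_rhoMat ρ)) = ⊤ := by
  classical
  have h := Fermat.Agent.S31.H202.span_range_rho_eq_top ρ habs
  set b := Fermat.Agent.S31.H202.rhoBasis ρ with hb
  have hrange : Set.range (h580_rhoMat ρ) = (LinearMap.toMatrix b b) '' (Set.range ρ.ρ) := by
    ext X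
    constructor
    · rintro ⟨g, rfl⟩
      exact ⟨ρ.ρ g, ⟨g, rfl⟩, rfl⟩
    · rintro ⟨_, ⟨g, rfl⟩, rfl⟩
      exact ⟨g, rfl⟩
  have hmap : Submodule.map ((LinearMap.toMatrix b b).toLinearMap)
      (Submodule.span O (Set.range ρ.ρ))
      = Submodule.span O ((LinearMap.toMatrix b b) '' (Set.range ρ.ρ)) :=
    Submodule.map_span _ _
  rw [hrange, ← hmap, h, Submodule.map_top, LinearMap.range_eq_top]
  exact (LinearMap.toMatrix b b).surjective

/-- Trace and determinant from the characteristic polynomial. -/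
theorem h580_rhoMat_of_charpoly (ρ : GaloisRepAdic O) (g : GQ) (a b : O)
    (h : LinearMap.charpoly (ρ.ρ g) = X ^ 2 - C a * X + C b) :
    (h580_rhoMat ρ g).trace = a ∧ (h580_rhoMat ρ g).det = b := by
  have hc : (h580_rhoMat ρ g).charpoly = X ^ 2 - C a * X + C b := by
    rw [h580_rhoMat_apply, LinearMap.charpoly_toMatrix, h]
  constructor
  · rw [Matrix.trace_eq_neg_charpoly_coeff, hc]
    simp
  · rw [Matrix.det_eq_sign_charpoly_coeff, hc]
    simp

/-- Adic continuity in matrix form. -/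
theorem h580_rhoMat_cont (ρ : GaloisRepAdic O) (n : ℕ) :
    ∃ L : IntermediateField ℚ (AlgebraicClosure ℚ), FiniteDimensional ℚ L ∧
      ∀ σ : GQ, (∀ x ∈ L, σ x = x) →
        ∀ i j, (h580_rhoMat ρ σ - 1) i j ∈ IsLocalRing.maximalIdeal O ^ n := by
  obtain ⟨L, hL, h⟩ := ρ.isAdicContinuous n
  refine ⟨L, hL, fun σ hσ i j => ?_⟩
  set b := Fermat.Agent.S31.H202.rhoBasis ρ with hb
  have hij : (h580_rhoMat ρ σ - 1) i j = b.repr (ρ.ρ σ (b j) - b j) i := by
    rw [h580_rhoMat_apply, Matrix.sub_apply, LinearMap.toMatrix_apply, map_sub,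
      Finsupp.sub_apply, Module.Basis.repr_self, Matrix.one_apply, Finsupp.single_apply]
    congr 1
    by_cases hji : j = i
    · simp [hji]
    · have : ¬ i = j := fun h' => hji h'.symm
      simp [hji, this]
  rw [hij]
  have hmem := h σ hσ (b j)
  refine Submodule.smul_induction_on (p := fun x => b.repr x i ∈ IsLocalRing.maximalIdeal O ^ n)
    hmem ?_ ?_
  · intro r hr m _
    rw [map_smul, Finsupp.smul_apply, smul_eq_mul]
    exact Ideal.mul_mem_right _ _ hr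
  · intro x y hx hy
    rw [map_add, Finsupp.add_apply]
    exact Ideal.add_mem _ hx hy

end RhoMat

end Fermat.Agent.Ribet.H580.IAOld

end
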